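/-
S44 library, block Q3 (helper8): an element whose `p`-th power is close to `1` is close to a
`p`-th root of unity, with the loss of exactly one factor `p`:
`v (g - ζ ^ i) * v p ≤ v (g ^ p - 1)` for some `i`.
(Product formula `g ^ p - 1 = ∏ (g - ζ ^ i)`, derivative of `X ^ p - 1` at the nearest root.)
-/
import Mathlib

set_option autoImplicit false

namespace Fermat.Agent.S44lib.Q3

open Polynomial

section

variable {K : Type*} [Field K]

/-- `g ^ n - 1 = ∏ (g - ζ ^ i)`. -/
lemma pow_sub_one_eq_prod {n : ℕ} (hn : 0 < n) {ζ : K} (hζ : IsPrimitiveRoot ζ n) (g : K) :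
    g ^ n - 1 = ∏ i ∈ Finset.range n, (g - ζ ^ i) := by
  have h := X_pow_sub_C_eq_prod hζ hn (one_pow n : (1 : K) ^ n = 1)
  have h2 := congrArg (Polynomial.eval g) h
  rw [eval_prod] at h2
  simpa using h2

/-- The derivative of `X ^ n - 1` at the root `ζ ^ k`. -/
lemma prod_erase_root_sub {n : ℕ} (hn : 0 < n) {ζ : K} (hζ : IsPrimitiveRoot ζ n) {k : ℕ}
    (hk : k ∈ Finset.range n) :
    ∏ j ∈ (Finset.range n).erase k, (ζ ^ k - ζ ^ j) = (n : K) * (ζ ^ k) ^ (n - 1) := by
  classical
  have h := X_pow_sub_C_eq_prod hζ hn (one_pow n : (1 : K) ^ n = 1)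
  have h2 := congrArg (fun q => Polynomial.eval (ζ ^ k) (derivative q)) h
  simp only [derivative_sub, derivative_X_pow, derivative_C, sub_zero, eval_mul, eval_pow, eval_X,
    derivative_prod_finset, mul_one, derivative_X, eval_finsetSum,
    eval_prod, eval_sub, eval_C] at h2
  rw [h2]
  symm
  apply Finset.sum_eq_single k
  · intro i _ hik
    apply Finset.prod_eq_zero (i := k) (Finset.mem_erase.mpr ⟨fun e => hik e.symm, hk⟩)
    simp
  · intro hk'
    exact absurd hk hk'

end

section val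

variable {K : Type*} [Field K] {Γ₀ : Type*} [LinearOrderedCommGroupWithZero Γ₀]
  (v : Valuation K Γ₀)

lemma val_root_of_unity {n : ℕ} (hn : n ≠ 0) {ω : K} (hω : ω ^ n = 1) : v ω = 1 := by
  have : v ω ^ n = 1 ^ n := by rw [← map_pow, hω, map_one, one_pow]
  exact (pow_left_inj₀ zero_le zero_le hn).mp this

/-- **An element whose `p`-th power is close to `1` is close to a root of unity.** -/
theorem exists_root_of_unity_near {n : ℕ} (hn : 0 < n) {ζ : K} (hζ : IsPrimitiveRoot ζ n)
    (g : K) : ∃ i < n, v (g - ζ ^ i) * v (n : K) ≤ v (g ^ n - 1) := by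
  classical
  obtain ⟨k, hk, hmin⟩ := Finset.exists_min_image (Finset.range n) (fun i => v (g - ζ ^ i))
    ⟨0, Finset.mem_range.mpr hn⟩
  refine ⟨k, Finset.mem_range.mp hk, ?_⟩
  rw [pow_sub_one_eq_prod hn hζ g, ← Finset.mul_prod_erase _ _ hk, map_mul, map_prod]
  have hζk : v (ζ ^ k) = 1 :=
    val_root_of_unity v hn.ne' (by rw [← pow_mul, mul_comm, pow_mul, hζ.pow_eq_one, one_pow])
  have e : v (n : K) = ∏ j ∈ (Finset.range n).erase k, v (ζ ^ k - ζ ^ j) := by
    rw [← map_prod, prod_erase_root_sub hn hζ hk, map_mul, map_pow, hζk, one_pow, mul_one]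
  rw [e]
  apply mul_le_mul' le_rfl
  apply Finset.prod_le_prod' 
  intro j hj
  have hj' : j ∈ Finset.range n := Finset.mem_of_mem_erase hj
  have e2 : ζ ^ k - ζ ^ j = (g - ζ ^ j) - (g - ζ ^ k) := by ring
  rw [e2]
  exact Valuation.map_sub_le _ le_rfl (hmin j hj')

end val

end Fermat.Agent.S44lib.Q3
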