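/-
S44 library, block Q3 (helper8): the inertia field of a valuation subring of `ℚ̄` (as a
`Subfield`), closed under square roots of units in odd residue characteristic; node data for
`y² = x³ + a x² + b x` with integers `p ∤ a`, `p ∣ b`.
-/
import Mathlib
import Fermat.Prelude.Def_FLTPrelim_Ramification
import Fermat.Agent.S05lib.Frey

set_option autoImplicit false
set_option linter.unusedSectionVars false

namespace Fermat.Agent.S44lib.Q3

open WeierstrassCurve WeierstrassCurve.Affine Fermat.Agent.S05lib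

local notation "Kbar" => AlgebraicClosure ℚ

/-- The inertia field of `A`: the elements of `ℚ̄` fixed by the inertia group of `A`. -/
noncomputable def inertiaField (A : ValuationSubring Kbar) : Subfield Kbar :=
  (IntermediateField.fixedField (A.inertiaSubgroupIn ℚ)).toSubfield

lemma mem_inertiaField (A : ValuationSubring Kbar) (z : Kbar) :
    z ∈ inertiaField A ↔ ∀ σ' ∈ A.inertiaSubgroupIn ℚ, σ' z = z := by
  rw [inertiaField, IntermediateField.mem_toSubfield, IntermediateField.mem_fixedField_iff]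

lemma intCast_mem_inertiaField (A : ValuationSubring Kbar) (n : ℤ) :
    (n : Kbar) ∈ inertiaField A :=
  (mem_inertiaField A _).mpr (fun σ' _ => map_intCast σ' n)

lemma fixed_of_mem_inertiaField {A : ValuationSubring Kbar} {σ : Kbar ≃ₐ[ℚ] Kbar}
    (hσ : σ ∈ A.inertiaSubgroupIn ℚ) {z : Kbar} (hz : z ∈ inertiaField A) : σ z = z :=
  (mem_inertiaField A z).mp hz σ hσ

/-- In odd residue characteristic the inertia field is closed under square roots of units. -/
lemma sqrt_mem_inertiaField (A : ValuationSubring Kbar) (h2 : A.valuation (2 : Kbar) = 1)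
    (z : Kbar) (hz : z ^ 2 ∈ inertiaField A) (hzv : A.valuation (z ^ 2) = 1) :
    z ∈ inertiaField A := by
  rw [mem_inertiaField] at hz ⊢
  intro σ' hσ'
  obtain ⟨-, hσ'1⟩ := inertia_facts A σ' hσ'
  have hzv1 : A.valuation z = 1 := by
    have : A.valuation z ^ 2 = 1 ^ 2 := by rw [← map_pow, hzv, one_pow]
    exact (pow_left_inj₀ zero_le zero_le (by norm_num)).mp this
  have hsq : σ' z ^ 2 = z ^ 2 := by rw [← map_pow, hz σ' hσ']
  rcases sq_eq_sq_iff_eq_or_eq_neg.mp hsq with h1 | h1
  · exact h1
  · exfalso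
    have h3 := hσ'1 z hzv1.le
    rw [h1] at h3
    have e : -z - z = -(2 * z) := by ring
    rw [e, Valuation.map_neg, map_mul, h2, one_mul, hzv1] at h3
    exact lt_irrefl _ h3

lemma val_two_eq_one (A : ValuationSubring Kbar) {p : ℕ} (hp : p.Prime) (hp3 : 3 ≤ p)
    (hpA : A.valuation (p : Kbar) < 1) : A.valuation (2 : Kbar) = 1 := by
  have hp2 : ¬(p : ℤ) ∣ 2 := by
    intro h
    have h' : p ∣ 2 := by exact_mod_cast h
    have := Nat.le_of_dvd (by norm_num) h'
    omega
  have := vint_eq_one_of_not_dvd A hp hpA hp2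
  simpa using this

/-- Node data for integers `p ∤ a`, `p ∣ b`, `b ≠ 0`. -/
lemma exists_nodeData_int (A : ValuationSubring Kbar) {p : ℕ} (hp : p.Prime) (hp3 : 3 ≤ p)
    (hpA : A.valuation (p : Kbar) < 1) (a b : ℤ) (ha : ¬(p : ℤ) ∣ a) (hb : (p : ℤ) ∣ b)
    (hb0 : b ≠ 0) : ∃ β : Kbar, NodeData A.valuation (a : Kbar) (b : Kbar) β := by
  obtain ⟨β, hβ⟩ := exists_sq_Kbar (a : Kbar)
  have hva : A.valuation (a : Kbar) = 1 := vint_eq_one_of_not_dvd A hp hpA ha
  have hβ1 : A.valuation β = 1 := by
    have : A.valuation β ^ 2 = 1 ^ 2 := by rw [← map_pow, hβ, hva, one_pow]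
    exact (pow_left_inj₀ zero_le zero_le (by norm_num)).mp this
  exact ⟨β, { hb := vint_lt_one_of_dvd A hpA hb
              hb0 := by exact_mod_cast hb0
              hβ := hβ
              hβ1 := hβ1
              h2 := val_two_eq_one A hp hp3 hpA }⟩

end Fermat.Agent.S44lib.Q3
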