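/-
S44 library, block Q3 (helper8): **the Frey curve at `p`, `p ∣ a b c`**:
an element `σ` of the inertia group at `p` which fixes every `p`-th root of every
inertia-invariant unit ("peu ramifié") acts trivially on the `p`-torsion of the Frey curve.
-/
import Mathlib
import Fermat.Prelude.Def_FLTPrelim_FreyPackage
import Fermat.Prelude.Def_FLTPrelim_Ramification
import Fermat.Agent.S05lib.Frey
import Fermat.Agent.S13lib.ValAut
import Fermat.Agent.S44lib.Q3.NodePeu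
import Fermat.Agent.S44lib.Q3.InertiaField

set_option autoImplicit false
set_option linter.unusedSectionVars false

namespace Fermat.Agent.S44lib.Q3

open WeierstrassCurve WeierstrassCurve.Affine Fermat.Agent.S05lib

local notation "Kbar" => AlgebraicClosure ℚ

/-- The peu ramifié condition on `σ` (relative to the inertia group of `A`): `σ` fixes every
`p`-th root of every inertia-invariant element of valuation `1`. -/
def IsPeu (A : ValuationSubring Kbar) (p : ℕ) (σ : Kbar ≃ₐ[ℚ] Kbar) : Prop :=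
  ∀ z : Kbar, (∀ σ' ∈ A.inertiaSubgroupIn ℚ, σ' (z ^ p) = z ^ p) →
    A.valuation (z ^ p) = 1 → σ z = z

/-- Node case at `p`: the hypotheses of `node_fixed_peu` for `legW a b` with integers `a`, `b`,
`p ∤ a`, `p ^ 3 ∣ b`. -/
theorem node_case_peu (A : ValuationSubring Kbar) {p : ℕ} (hp : p.Prime) (hp3 : 3 ≤ p)
    (hpA : A.valuation (p : Kbar) < 1) (σ : Kbar ≃ₐ[ℚ] Kbar) (hσ : σ ∈ A.inertiaSubgroupIn ℚ)
    (hpeu : IsPeu A p σ)
    (a b r : ℤ) (ha : ¬(p : ℤ) ∣ a) (hb : (p : ℤ) ^ 3 ∣ b) (hb0 : b ≠ 0)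
    (hr : A.valuation (r : Kbar) ^ p = A.valuation (b : Kbar) ^ 2) :
    FixesTorsion (K := Kbar) (legW ((a : ℤ) : ℚ) ((b : ℤ) : ℚ) : Affine ℚ) σ p := by
  obtain ⟨hσA, hσ1⟩ := inertia_facts A σ hσ
  have : Algebra.IsAlgebraic ℚ Kbar := AlgebraicClosure.isAlgebraic ℚ
  have hσv : ∀ y, A.valuation (σ y) = A.valuation y := S13lib.val_algEquiv_eq σ hσA
  apply fixesTorsion_legW' _ _ (a : Kbar) (b : Kbar) (algebraMap_intCast a) (algebraMap_intCast b)
  intro τ hτ
  have hpb : (p : ℤ) ∣ b := dvd_trans (dvd_pow_self _ (by norm_num)) hb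
  obtain ⟨β, hnode⟩ := exists_nodeData_int A hp hp3 hpA a b ha hpb hb0
  -- `v b < v p ^ 2`
  have hp0K : (p : Kbar) ≠ 0 := by exact_mod_cast hp.ne_zero
  have hpv0 : 0 < A.valuation (p : Kbar) := zero_lt_iff.mpr ((Valuation.ne_zero_iff _).mpr hp0K)
  have hbp : A.valuation (b : Kbar) < A.valuation (p : Kbar) ^ 2 := by
    obtain ⟨m, rfl⟩ := hb
    push_cast
    rw [map_mul, map_pow]
    calc A.valuation (p : Kbar) ^ 3 * A.valuation (m : Kbar)
        ≤ A.valuation (p : Kbar) ^ 3 * 1 := mul_le_mul' le_rfl (vint_le_one A m)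
      _ = A.valuation (p : Kbar) ^ 3 := mul_one _
      _ < A.valuation (p : Kbar) ^ 2 := pow_lt_pow_right_of_lt_one₀ hpv0 hpA (by norm_num)
  -- roots
  have : NeZero ((p : ℕ) : ℚ) := ⟨by exact_mod_cast hp.ne_zero⟩
  obtain ⟨ζ, hζ⟩ := HasEnoughRootsOfUnity.exists_primitiveRoot Kbar p
  have hroot : ∀ c : Kbar, ∃ d : Kbar, d ^ p = c := fun c =>
    IsAlgClosed.exists_pow_nat_eq c hp.pos
  have hpeu' : ∀ z : Kbar, z ^ p ∈ inertiaField A → A.valuation (z ^ p) = 1 → σ z = z := by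
    intro z hz hzv
    exact hpeu z ((mem_inertiaField A _).mp hz) hzv
  exact node_fixed_peu hnode exists_sq_Kbar (σ : Kbar →+* Kbar) (fun x => hσv x)
    (fun x hx => hσ1 x hx) τ (fun x y hP => hτ x y hP) hp3 (by exact_mod_cast hbp) hζ hroot
    (inertiaField A) (intCast_mem_inertiaField A a) (intCast_mem_inertiaField A b)
    (fun z hz => fixed_of_mem_inertiaField hσ hz) (sqrt_mem_inertiaField A hnode.h2) hpeu'
    (intCast_mem_inertiaField A r) hr

/-- **The Frey curve at `p`, `p ∣ a b c`: peu ramifié inertia acts trivially on the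
`p`-torsion.** -/
theorem frey_fixesTorsion_peu (P : FreyPackage) (hpabc : (P.p : ℤ) ∣ P.a * P.b * P.c)
    (A : ValuationSubring Kbar) (hA : A.LiesOverPrime P.p) (σ : Kbar ≃ₐ[ℚ] Kbar)
    (hσ : σ ∈ A.inertiaSubgroupIn ℚ) (hpeu : IsPeu A P.p σ) :
    FixesTorsion (K := Kbar) (P.freyCurve : Affine ℚ) σ P.p := by
  have hq : P.p.Prime := P.pp
  have hqA : A.valuation (P.p : Kbar) < 1 := hA
  have hqprime : Prime (P.p : ℤ) := Nat.prime_iff_prime_int.mp hq
  have hp3 : 3 ≤ P.p := by have := P.hp5; omega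
  have hp0 : P.p ≠ 0 := P.hp0
  have hFLT : P.a ^ P.p + P.b ^ P.p = P.c ^ P.p := P.hFLT
  -- coprimality
  have hnot_ab : ¬((P.p : ℤ) ∣ P.a ∧ (P.p : ℤ) ∣ P.b) := by
    rintro ⟨h1, h2⟩
    have := dvd_gcd h1 h2
    rw [P.hgcdab] at this
    exact hqprime.not_isUnit (isUnit_of_dvd_one this)
  have hnot_ac : ¬((P.p : ℤ) ∣ P.a ∧ (P.p : ℤ) ∣ P.c) := by
    rintro ⟨h1, h2⟩
    have := dvd_gcd h1 h2
    rw [P.hgcdac] at this
    exact hqprime.not_isUnit (isUnit_of_dvd_one this)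
  have hpow : ∀ z : ℤ, (P.p : ℤ) ∣ z ^ P.p ↔ (P.p : ℤ) ∣ z := fun z =>
    ⟨fun h => hqprime.dvd_of_dvd_pow h, fun h => dvd_pow h hp0⟩
  have hpow3 : ∀ z : ℤ, (P.p : ℤ) ∣ z → (P.p : ℤ) ^ 3 ∣ z ^ P.p := fun z hz =>
    dvd_trans (pow_dvd_pow _ hp3) (pow_dvd_pow_of_dvd hz _)
  apply FixesTorsion.of_variableChange _ vc1
  rw [frey_vc1]
  by_cases hc : (P.p : ℤ) ∣ P.c
  · -- `p ∣ c`: translate the node to the origin
    have ha : ¬(P.p : ℤ) ∣ P.a := fun h => hnot_ac ⟨h, hc⟩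
    apply FixesTorsion.of_variableChange _ (vc2 ((P.a ^ P.p : ℤ) : ℚ))
    rw [legW_vc2]
    have hAi : A.valuation ((P.a ^ P.p : ℤ) : Kbar) = 1 :=
      vint_eq_one_of_not_dvd A hq hqA (fun h => ha ((hpow _).mp h))
    apply node_case_peu A hq hp3 hqA σ hσ hpeu _ _ (P.c ^ 2)
    · intro h
      rw [hFLT] at h
      have : (P.p : ℤ) ∣ P.a ^ P.p := (dvd_add_left ((hpow _).mpr hc)).mp h
      exact ha ((hpow _).mp this)
    · rw [hFLT]
      exact dvd_mul_of_dvd_right (hpow3 _ hc) _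
    · rw [hFLT]
      exact mul_ne_zero (pow_ne_zero _ P.ha0) (pow_ne_zero _ P.hc0)
    · rw [hFLT]
      push_cast
      rw [map_mul, map_pow, map_pow, map_pow]
      push_cast at hAi
      rw [map_pow] at hAi
      rw [hAi, one_mul, ← pow_mul, ← pow_mul, mul_comm]
  · -- `p ∣ a b`: node at the origin
    have hab : (P.p : ℤ) ∣ P.a * P.b := by
      rcases hqprime.dvd_or_dvd hpabc with h | h
      · exact h
      · exact absurd h hc
    apply node_case_peu A hq hp3 hqA σ hσ hpeu _ _ ((P.a * P.b) ^ 2)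
    · intro h
      rcases hqprime.dvd_or_dvd hab with h1 | h1
      · have h2 : (P.p : ℤ) ∣ P.b ^ P.p := (dvd_sub_left ((hpow _).mpr h1)).mp h
        exact hnot_ab ⟨h1, (hpow _).mp h2⟩
      · have h2 : (P.p : ℤ) ∣ P.a ^ P.p := (dvd_sub_right ((hpow _).mpr h1)).mp h
        exact hnot_ab ⟨(hpow _).mp h2, h1⟩
    · rw [dvd_neg, ← mul_pow]
      exact hpow3 _ hab
    · exact neg_ne_zero.mpr (mul_ne_zero (pow_ne_zero _ P.ha0) (pow_ne_zero _ P.hb0))
    · push_cast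
      rw [Valuation.map_neg, ← map_pow, ← map_pow]
      congr 1
      ring

/-- The same statement on the `p`-torsion submodule (the form of `GaloisRepUnramifiedAt`). -/
theorem frey_torsion_fixed_peu (P : FreyPackage) (hpabc : (P.p : ℤ) ∣ P.a * P.b * P.c)
    (A : ValuationSubring Kbar) (hA : A.LiesOverPrime P.p) (σ : Kbar ≃ₐ[ℚ] Kbar)
    (hσ : σ ∈ A.inertiaSubgroupIn ℚ) (hpeu : IsPeu A P.p σ)
    (x : Submodule.torsionBy ℤ ((P.freyCurve : Affine ℚ)⁄Kbar).Point P.p) : σ • x = x := by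
  have key := frey_fixesTorsion_peu P hpabc A hA σ hσ hpeu
  apply Subtype.ext
  have hx := (Submodule.mem_torsionBy_iff _ _).mp x.2
  rw [natCast_zsmul] at hx
  exact key x.1 hx

end Fermat.Agent.S44lib.Q3
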