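/-
S44 library, block Q3 (helper8): the statement of `Q3/Frey.lean` in the vocabulary of
`S19lib/Iface` (`IA A` the inertia group, `A0 A` the ring of inertia-invariant integers).
-/
import Mathlib
import Fermat.Agent.S19lib.Iface
import Fermat.Agent.S44lib.Q3.Frey

set_option autoImplicit false

namespace Fermat.Agent.S44lib.Q3

open WeierstrassCurve WeierstrassCurve.Affine Fermat.Agent.S05lib Fermat.Agent.S19lib

local notation "Kbar" => AlgebraicClosure ℚ

/-- The peu ramifié subgroup condition, in the vocabulary of `S19lib`: `σ` fixes every `p`-th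
root of every unit of `A0 A`. -/
def FixesUnitRoots (A : ValuationSubring Kbar) (p : ℕ) (σ : Kbar ≃ₐ[ℚ] Kbar) : Prop :=
  ∀ z : Kbar, z ^ p ∈ A0 A → A.valuation (z ^ p) = 1 → σ z = z

lemma isPeu_of_fixesUnitRoots {A : ValuationSubring Kbar} {p : ℕ} {σ : Kbar ≃ₐ[ℚ] Kbar}
    (h : FixesUnitRoots A p σ) : IsPeu A p σ := by
  intro z hz hzv
  refine h z ⟨?_, hz⟩ hzv
  exact (A.valuation_le_one_iff _).mp hzv.le

/-- **Q3 (Frey at `p`).**  If `p ∣ a b c`, every `σ ∈ IA A` (`A` over `p`) which fixes all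
`p`-th roots of all units of `A0 A` acts trivially on the `p`-torsion of the Frey curve. -/
theorem frey_fixesTorsion_of_fixesUnitRoots (P : FreyPackage)
    (hpabc : (P.p : ℤ) ∣ P.a * P.b * P.c)
    (A : ValuationSubring Kbar) (hA : A.LiesOverPrime P.p) (σ : Kbar ≃ₐ[ℚ] Kbar)
    (hσ : σ ∈ IA A) (hpeu : FixesUnitRoots A P.p σ) :
    FixesTorsion (K := Kbar) (P.freyCurve : Affine ℚ) σ P.p :=
  frey_fixesTorsion_peu P hpabc A hA σ hσ (isPeu_of_fixesUnitRoots hpeu)

/-- Torsion-submodule form. -/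
theorem frey_torsion_fixed_of_fixesUnitRoots (P : FreyPackage)
    (hpabc : (P.p : ℤ) ∣ P.a * P.b * P.c)
    (A : ValuationSubring Kbar) (hA : A.LiesOverPrime P.p) (σ : Kbar ≃ₐ[ℚ] Kbar)
    (hσ : σ ∈ IA A) (hpeu : FixesUnitRoots A P.p σ)
    (x : Submodule.torsionBy ℤ ((P.freyCurve : Affine ℚ)⁄Kbar).Point P.p) : σ • x = x :=
  frey_torsion_fixed_peu P hpabc A hA σ hσ (isPeu_of_fixesUnitRoots hpeu) x

end Fermat.Agent.S44lib.Q3
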