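/-
S44 library, block Q3 (helper8): the subgroup of points of `y² = x³ + a x² + b x` with
coordinates in a subfield containing `a` and `b`.
-/
import Mathlib
import Fermat.Agent.S05lib.LegCurve

set_option autoImplicit false
set_option linter.unusedSectionVars false

namespace Fermat.Agent.S44lib.Q3

open WeierstrassCurve WeierstrassCurve.Affine Fermat.Agent.S05lib

variable {K : Type*} [Field K] [DecidableEq K] {a b : K}

variable (a b) in
/-- A point is rational over the subfield `F`. -/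
def IsRat (F : Subfield K) : (legW a b).toAffine.Point → Prop
  | .zero => True
  | .some x y _ => x ∈ F ∧ y ∈ F

lemma isRat_zero (F : Subfield K) : IsRat a b F (0 : (legW a b).toAffine.Point) := trivial

lemma isRat_some (F : Subfield K) {x y : K} (hP : (legW a b).toAffine.Nonsingular x y) :
    IsRat a b F (Point.some x y hP) ↔ x ∈ F ∧ y ∈ F := Iff.rfl

lemma IsRat.neg {F : Subfield K} {P : (legW a b).toAffine.Point} (hP : IsRat a b F P) :
    IsRat a b F (-P) := by
  rcases P with _ | ⟨x, y, hxy⟩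
  · exact hP
  · rw [Point.neg_some, isRat_some, leg_negY]
    exact ⟨hP.1, F.neg_mem hP.2⟩

lemma natCast_mem_subfield (F : Subfield K) (n : ℕ) : (n : K) ∈ F := by
  induction n with
  | zero => simp
  | succ n ih => push_cast; exact F.add_mem ih F.one_mem

lemma IsRat.add {F : Subfield K} (hFa : a ∈ F) (hFb : b ∈ F) {P Q : (legW a b).toAffine.Point}
    (hP : IsRat a b F P) (hQ : IsRat a b F Q) : IsRat a b F (P + Q) := by
  rcases P with _ | ⟨x₁, y₁, h₁⟩
  · have e : (Point.zero : (legW a b).toAffine.Point) + Q = Q := zero_add Q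
    rw [e]; exact hQ
  rcases Q with _ | ⟨x₂, y₂, h₂⟩
  · have e : Point.some x₁ y₁ h₁ + (Point.zero : (legW a b).toAffine.Point) =
        Point.some x₁ y₁ h₁ := add_zero _
    rw [e]; exact hP
  obtain ⟨hx₁, hy₁⟩ := hP
  obtain ⟨hx₂, hy₂⟩ := hQ
  by_cases hxy : x₁ = x₂ ∧ y₁ = (legW a b).toAffine.negY x₂ y₂
  · rw [Point.add_of_Y_eq hxy.1 hxy.2]; trivial
  · rw [Point.add_some hxy, isRat_some]
    have hℓ : (legW a b).toAffine.slope x₁ x₂ y₁ y₂ ∈ F := by
      by_cases hx : x₁ = x₂
      · have hy : y₁ ≠ (legW a b).toAffine.negY x₂ y₂ := fun e => hxy ⟨hx, e⟩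
        rw [Affine.slope_of_Y_ne hx hy, leg_negY]
        simp only [legW_a₁, legW_a₂, legW_a₄, zero_mul, sub_zero]
        have h2 : (2 : K) ∈ F := by exact_mod_cast natCast_mem_subfield F 2
        have h3 : (3 : K) ∈ F := by exact_mod_cast natCast_mem_subfield F 3
        exact F.div_mem (F.add_mem (F.add_mem (F.mul_mem h3 (F.pow_mem hx₁ 2))
          (F.mul_mem (F.mul_mem h2 hFa) hx₁)) hFb) (F.sub_mem hy₁ (F.neg_mem hy₁))
      · rw [Affine.slope_of_X_ne hx]
        exact F.div_mem (F.sub_mem hy₁ hy₂) (F.sub_mem hx₁ hx₂)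
    refine ⟨?_, ?_⟩
    · rw [leg_addX]
      exact F.sub_mem (F.sub_mem (F.sub_mem (F.pow_mem hℓ 2) hFa) hx₁) hx₂
    · rw [leg_addY]
      exact F.neg_mem (F.add_mem (F.mul_mem hℓ (F.sub_mem
        (F.sub_mem (F.sub_mem (F.sub_mem (F.pow_mem hℓ 2) hFa) hx₁) hx₂) hx₁)) hy₁)

/-- The subgroup of `F`-rational points. -/
def ratPts (F : Subfield K) (hFa : a ∈ F) (hFb : b ∈ F) :
    AddSubgroup (legW a b).toAffine.Point where
  carrier := {P | IsRat a b F P}
  zero_mem' := trivial
  add_mem' := fun hP hQ => IsRat.add hFa hFb hP hQ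
  neg_mem' := fun hP => IsRat.neg hP

lemma IsRat.nsmul {F : Subfield K} (hFa : a ∈ F) (hFb : b ∈ F) {P : (legW a b).toAffine.Point}
    (hP : IsRat a b F P) (n : ℕ) : IsRat a b F (n • P) :=
  (ratPts F hFa hFb).nsmul_mem hP n

end Fermat.Agent.S44lib.Q3
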