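/-
S44 library, block Q3 (helper8): the branch-ratio function `t = (y - βx)/(y + βx)` on the
node model `y² = x³ + a x² + b x` (`β² = a`), an algebraic stand-in for the Tate parameter:
it is multiplicative on the points with nonsingular reduction up to `1 + b·(integers)`.
-/
import Mathlib
import Fermat.Agent.S05lib.Node
import Fermat.Agent.S05lib.KerRed.Main

set_option autoImplicit false
set_option linter.unusedSectionVars false

namespace Fermat.Agent.S44lib.Q3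

open WeierstrassCurve WeierstrassCurve.Affine Fermat.Agent.S05lib

section algebra

variable {K : Type*} [Field K] {a b β : K}

/-- Vieta: the product of the "minus" branch functions over the three points of a line. -/
lemma branch_prod_minus {x₁ x₂ x₃ y₁ y₂ y₃ ℓ ν : K} (hβ : β ^ 2 = a)
    (hy₁ : y₁ = ℓ * x₁ + ν) (hy₂ : y₂ = ℓ * x₂ + ν) (hy₃ : y₃ = -(ℓ * x₃ + ν))
    (hV1 : x₁ + x₂ + x₃ = ℓ ^ 2 - a)
    (hV2 : x₁ * x₂ + x₁ * x₃ + x₂ * x₃ = b - 2 * ℓ * ν)
    (hV3 : x₁ * x₂ * x₃ = ν ^ 2) :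
    (y₁ - β * x₁) * (y₂ - β * x₂) * (y₃ + β * x₃) = -(ν * (ν ^ 2 + b * (ℓ - β) ^ 2)) := by
  subst hy₁ hy₂ hy₃
  linear_combination (-(ℓ - β) ^ 3) * hV3 + (-(ℓ - β) ^ 2 * ν) * hV2 +
    (-(ℓ - β) * ν ^ 2) * hV1 + (-(ℓ - β) * ν ^ 2) * hβ

/-- Vieta: the product of the "plus" branch functions over the three points of a line. -/
lemma branch_prod_plus {x₁ x₂ x₃ y₁ y₂ y₃ ℓ ν : K} (hβ : β ^ 2 = a)
    (hy₁ : y₁ = ℓ * x₁ + ν) (hy₂ : y₂ = ℓ * x₂ + ν) (hy₃ : y₃ = -(ℓ * x₃ + ν))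
    (hV1 : x₁ + x₂ + x₃ = ℓ ^ 2 - a)
    (hV2 : x₁ * x₂ + x₁ * x₃ + x₂ * x₃ = b - 2 * ℓ * ν)
    (hV3 : x₁ * x₂ * x₃ = ν ^ 2) :
    (y₁ + β * x₁) * (y₂ + β * x₂) * (y₃ - β * x₃) = -(ν * (ν ^ 2 + b * (ℓ + β) ^ 2)) := by
  subst hy₁ hy₂ hy₃
  linear_combination (-(ℓ + β) ^ 3) * hV3 + (-(ℓ + β) ^ 2 * ν) * hV2 +
    (-(ℓ + β) * ν ^ 2) * hV1 + (-(ℓ + β) * ν ^ 2) * hβ

end algebra

section val

variable {K : Type*} [Field K] [DecidableEq K] {Γ₀ : Type*} [LinearOrderedCommGroupWithZero Γ₀]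
  {v : Valuation K Γ₀} {a b β : K}

variable (a b β) in
/-- The branch ratio `t = (y - βx)/(y + βx)`, with `t(0) = 1`. -/
noncomputable def tf : (legW a b).toAffine.Point → K
  | .zero => 1
  | .some x y _ => (y - β * x) / (y + β * x)

@[simp] lemma tf_zero : tf a b β (0 : (legW a b).toAffine.Point) = 1 := rfl

@[simp] lemma tf_some {x y : K} (hP : (legW a b).toAffine.Nonsingular x y) :
    tf a b β (.some x y hP) = (y - β * x) / (y + β * x) := rfl

/-- In `E₀` both branch functions have the same nonzero valuation. -/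
lemma v_branch_eq (h : NodeData v a b β) {x y : K}
    (hxy : y ^ 2 = x ^ 3 + a * x ^ 2 + b * x) (hx : 1 ≤ v x) :
    v (y - β * x) = v (y + β * x) ∧ v (y + β * x) ≠ 0 := by
  obtain ⟨h1, h2⟩ := h.v_branch_sq_of_E0 hxy hx
  have e : v (y - β * x) ^ 2 = v (y + β * x) ^ 2 := by rw [h1, h2]
  refine ⟨(pow_left_inj₀ zero_le zero_le two_ne_zero).mp e, ?_⟩
  intro h0
  rw [h0] at h1
  have hx0 : 0 < v x := lt_of_lt_of_le zero_lt_one hx
  have : v x ^ 3 = 0 := by rw [← h1]; exact zero_pow two_ne_zero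
  exact (pow_pos hx0 3).ne' this

/-- `t` is a unit on `E₀`. -/
lemma v_tf_of_E0 (h : NodeData v a b β) {P : (legW a b).toAffine.Point} (hP : IsE0 v a b P) :
    v (tf a b β P) = 1 := by
  rcases P with _ | ⟨x, y, hxy⟩
  · show v (1 : K) = 1
    exact map_one v
  · have hx : 1 ≤ v x := hP
    obtain ⟨e1, e2⟩ := v_branch_eq h ((leg_equation_iff a b x y).mp hxy.1) hx
    rw [tf_some, map_div₀, e1, div_self e2]

lemma tf_ne_zero_of_E0 (h : NodeData v a b β) {P : (legW a b).toAffine.Point}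
    (hP : IsE0 v a b P) : tf a b β P ≠ 0 := by
  intro h0
  have := v_tf_of_E0 h hP
  rw [h0, map_zero] at this
  exact zero_ne_one this

lemma v_four_beta (h : NodeData v a b β) : v (4 * β) = 1 := by
  have e : (4 : K) = 2 * 2 := by norm_num
  rw [e, map_mul, map_mul, h.h2, h.hβ1, one_mul, one_mul]

/-- The multiplicativity defect of `t` on two affine points of `E₀` which are not opposite. -/
lemma tf_add_some_estimate (h : NodeData v a b β) {x₁ y₁ x₂ y₂ : K}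
    (h₁ : (legW a b).toAffine.Nonsingular x₁ y₁) (h₂ : (legW a b).toAffine.Nonsingular x₂ y₂)
    (hx₁ : 1 ≤ v x₁) (hx₂ : 1 ≤ v x₂)
    (hxy : ¬(x₁ = x₂ ∧ y₁ = (legW a b).toAffine.negY x₂ y₂)) :
    v (tf a b β (Point.some x₁ y₁ h₁ + Point.some x₂ y₂ h₂) -
      tf a b β (Point.some x₁ y₁ h₁) * tf a b β (Point.some x₂ y₂ h₂)) ≤ v b := by
  obtain ⟨ℓ, ν, x₃, y₃, h₃, hadd, hy₁, hy₂, hy₃, hV1, hV2, hV3⟩ := leg_add_some a b h₁ h₂ hxy
  have hx₃ : 1 ≤ v x₃ := by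
    have := h.comp_add_EE (P := Point.some x₁ y₁ h₁) (Q := Point.some x₂ y₂ h₂) hx₁ hx₂
    rw [hadd] at this
    exact this
  have e₁ := (leg_equation_iff a b x₁ y₁).mp h₁.1
  have e₂ := (leg_equation_iff a b x₂ y₂).mp h₂.1
  have e₃ := (leg_equation_iff a b x₃ y₃).mp h₃.1
  obtain ⟨b1, c1⟩ := v_branch_eq h e₁ hx₁
  obtain ⟨b2, c2⟩ := v_branch_eq h e₂ hx₂
  obtain ⟨b3, c3⟩ := v_branch_eq h e₃ hx₃
  have n1 : y₁ + β * x₁ ≠ 0 := (Valuation.ne_zero_iff v).mp c1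
  have n2 : y₂ + β * x₂ ≠ 0 := (Valuation.ne_zero_iff v).mp c2
  have n3 : y₃ + β * x₃ ≠ 0 := (Valuation.ne_zero_iff v).mp c3
  have im := branch_prod_minus (b := b) h.hβ hy₁ hy₂ hy₃ hV1 hV2 hV3
  have ip := branch_prod_plus (b := b) h.hβ hy₁ hy₂ hy₃ hV1 hV2 hV3
  rw [hadd, tf_some, tf_some, tf_some]
  -- the key identity after clearing denominators
  have key : ((y₃ - β * x₃) / (y₃ + β * x₃) -
      (y₁ - β * x₁) / (y₁ + β * x₁) * ((y₂ - β * x₂) / (y₂ + β * x₂))) *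
      ((y₁ + β * x₁) * (y₂ + β * x₂) * (y₃ + β * x₃)) = -(4 * β * b * ℓ * ν) := by
    field_simp
    linear_combination ip - im
  -- valuations
  have hν2 : v ν ^ 2 = v x₁ * v x₂ * v x₃ := by
    rw [← map_pow, ← hV3, map_mul, map_mul]
  have hx₁0 : 0 < v x₁ := lt_of_lt_of_le zero_lt_one hx₁
  have hx₂0 : 0 < v x₂ := lt_of_lt_of_le zero_lt_one hx₂
  have hx₃0 : 0 < v x₃ := lt_of_lt_of_le zero_lt_one hx₃
  have hν2ge : 1 ≤ v ν ^ 2 := by
    rw [hν2]
    exact one_le_mul_of_one_le_of_one_le (one_le_mul_of_one_le_of_one_le hx₁ hx₂) hx₃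
  have hν1 : 1 ≤ v ν := by
    by_contra hlt
    push Not at hlt
    have : v ν ^ 2 < 1 := pow_lt_one₀ zero_le hlt two_ne_zero
    exact absurd hν2ge (not_le.mpr this)
  have hν0 : 0 < v ν := lt_of_lt_of_le zero_lt_one hν1
  have hxle : ∀ {u w z : Γ₀}, 1 ≤ u → 1 ≤ w → 1 ≤ z → u ≤ u * w * z := by
    intro u w z hu hw hz
    calc u = u * 1 * 1 := by rw [mul_one, mul_one]
      _ ≤ u * w * z := mul_le_mul' (mul_le_mul' le_rfl hw) hz
  have hℓ2 : v ℓ ^ 2 ≤ v ν ^ 2 := by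
    have e : ℓ ^ 2 = a + x₁ + x₂ + x₃ := by linear_combination -hV1
    rw [← map_pow, e, hν2]
    refine Valuation.map_add_le _ (Valuation.map_add_le _ (Valuation.map_add_le _ ?_ ?_) ?_) ?_
    · rw [h.va]
      exact one_le_mul_of_one_le_of_one_le (one_le_mul_of_one_le_of_one_le hx₁ hx₂) hx₃
    · exact hxle hx₁ hx₂ hx₃
    · calc v x₂ ≤ v x₂ * v x₁ * v x₃ := hxle hx₂ hx₁ hx₃
        _ = v x₁ * v x₂ * v x₃ := by rw [mul_comm (v x₂) (v x₁)]
    · calc v x₃ ≤ v x₃ * v x₁ * v x₂ := hxle hx₃ hx₁ hx₂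
        _ = v x₁ * v x₂ * v x₃ := by rw [mul_assoc, mul_comm]
  have hℓ : v ℓ ≤ v ν := le_of_pow_le_pow_left₀ two_ne_zero zero_le hℓ2
  have hprod : v ((y₁ + β * x₁) * (y₂ + β * x₂) * (y₃ + β * x₃)) ^ 2 = (v ν ^ 3) ^ 2 := by
    rw [map_mul, map_mul, mul_pow, mul_pow, (h.v_branch_sq_of_E0 e₁ hx₁).1,
      (h.v_branch_sq_of_E0 e₂ hx₂).1, (h.v_branch_sq_of_E0 e₃ hx₃).1, ← mul_pow, ← mul_pow,
      ← hν2, ← pow_mul, ← pow_mul]
  have hprod' : v ((y₁ + β * x₁) * (y₂ + β * x₂) * (y₃ + β * x₃)) = v ν ^ 3 :=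
    (pow_left_inj₀ zero_le zero_le two_ne_zero).mp hprod
  have hval := congrArg v key
  rw [map_mul, hprod', Valuation.map_neg, map_mul, map_mul, map_mul, v_four_beta h] at hval
  -- `v diff * v ν ^ 3 = v b * v ℓ * v ν ≤ v b * v ν ^ 3`
  have hle : v b * v ℓ * v ν ≤ v b * v ν ^ 3 := by
    have : v ℓ * v ν ≤ v ν ^ 3 := by
      calc v ℓ * v ν ≤ v ν * v ν := mul_le_mul' hℓ le_rfl
        _ = 1 * (v ν * v ν) := (one_mul _).symm
        _ ≤ v ν * (v ν * v ν) := mul_le_mul' hν1 le_rfl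
        _ = v ν ^ 3 := by rw [pow_succ, pow_two, mul_comm (v ν * v ν)]
    calc v b * v ℓ * v ν = v b * (v ℓ * v ν) := mul_assoc _ _ _
      _ ≤ v b * v ν ^ 3 := mul_le_mul' le_rfl this
  rw [one_mul] at hval
  rw [← hval] at hle
  exact (mul_le_mul_iff_left₀ (pow_pos hν0 3)).mp hle

/-- **`t` is multiplicative on `E₀` modulo `b`.** -/
theorem tf_add_E0 (h : NodeData v a b β) {P Q : (legW a b).toAffine.Point}
    (hP : IsE0 v a b P) (hQ : IsE0 v a b Q) :
    v (tf a b β (P + Q) - tf a b β P * tf a b β Q) ≤ v b := by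
  rcases P with _ | ⟨x₁, y₁, h₁⟩
  · have e : (Point.zero : (legW a b).toAffine.Point) + Q = Q := zero_add Q
    have e' : tf a b β (Point.zero : (legW a b).toAffine.Point) = 1 := rfl
    rw [e, e', one_mul, sub_self, map_zero]
    exact zero_le
  rcases Q with _ | ⟨x₂, y₂, h₂⟩
  · have e : Point.some x₁ y₁ h₁ + (Point.zero : (legW a b).toAffine.Point) =
        Point.some x₁ y₁ h₁ := add_zero _
    have e' : tf a b β (Point.zero : (legW a b).toAffine.Point) = 1 := rfl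
    rw [e, e', mul_one, sub_self, map_zero]
    exact zero_le
  have hx₁ : 1 ≤ v x₁ := hP
  have hx₂ : 1 ≤ v x₂ := hQ
  by_cases hxy : x₁ = x₂ ∧ y₁ = (legW a b).toAffine.negY x₂ y₂
  · rw [Point.add_of_Y_eq hxy.1 hxy.2, tf_zero, tf_some, tf_some]
    obtain ⟨rfl, hy⟩ := hxy
    rw [leg_negY] at hy
    subst hy
    have e₂ := (leg_equation_iff a b x₁ y₂).mp h₂.1
    obtain ⟨b2, c2⟩ := v_branch_eq h e₂ hx₂
    have n2 : y₂ + β * x₁ ≠ 0 := (Valuation.ne_zero_iff v).mp c2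
    have n2' : y₂ - β * x₁ ≠ 0 := (Valuation.ne_zero_iff v).mp (by rw [b2]; exact c2)
    have n3 : -y₂ + β * x₁ ≠ 0 := by
      intro h0
      apply n2'
      linear_combination -h0
    have : (1 : K) - (-y₂ - β * x₁) / (-y₂ + β * x₁) * ((y₂ - β * x₁) / (y₂ + β * x₁)) = 0 := by
      field_simp
      ring
    rw [this, map_zero]
    exact zero_le
  · exact tf_add_some_estimate h h₁ h₂ hx₁ hx₂ hxy

/-- `E₀` is stable under multiples, and `t (k • S) ≡ t S ^ k` modulo `b`. -/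
theorem tf_nsmul_E0 (h : NodeData v a b β) {S : (legW a b).toAffine.Point}
    (hS : IsE0 v a b S) (k : ℕ) :
    IsE0 v a b (k • S) ∧ v (tf a b β (k • S) - tf a b β S ^ k) ≤ v b := by
  induction k with
  | zero =>
    rw [zero_smul, pow_zero]
    refine ⟨trivial, ?_⟩
    rw [tf_zero, sub_self, map_zero]
    exact zero_le
  | succ k ih =>
    obtain ⟨ih1, ih2⟩ := ih
    rw [succ_nsmul, pow_succ]
    refine ⟨h.comp_add_EE ih1 hS, ?_⟩
    have e : tf a b β (k • S + S) - tf a b β S ^ k * tf a b β S =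
        (tf a b β (k • S + S) - tf a b β (k • S) * tf a b β S) +
          (tf a b β (k • S) - tf a b β S ^ k) * tf a b β S := by ring
    rw [e]
    refine Valuation.map_add_le _ (tf_add_E0 h ih1 hS) ?_
    rw [map_mul, v_tf_of_E0 h hS, mul_one]
    exact ih2

/-- On the kernel of reduction, `t - 1` has the valuation of the parameter `z = -x/y`. -/
lemma v_tf_sub_one_of_E1 (h : NodeData v a b β) {x y : K}
    (hP : (legW a b).toAffine.Nonsingular x y) (hx : 1 < v x) :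
    v (tf a b β (Point.some x y hP) - 1) = v (zc (Point.some x y hP)) := by
  have hW : IntegralModel v (legW a b).toAffine :=
    { a₁ := by simp
      a₂ := by simp [h.va]
      a₃ := by simp
      a₄ := by simpa using h.hb.le
      a₆ := by simp }
  obtain ⟨hxy, -⟩ := val_y_of_one_lt hW hP.1 hx
  have hβx : v (β * x) = v x := by rw [map_mul, h.hβ1, one_mul]
  have hden : v (y + β * x) = v y := by
    rw [Valuation.map_add_eq_of_lt_left]
    rw [hβx]; exact hxy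
  have hy0 : v y ≠ 0 := (lt_trans (lt_trans zero_lt_one hx) hxy).ne'
  have n : y + β * x ≠ 0 := (Valuation.ne_zero_iff v).mp (by rw [hden]; exact hy0)
  have e : (y - β * x) / (y + β * x) - 1 = -(2 * β * x) / (y + β * x) := by
    field_simp
    ring
  rw [tf_some, zc_some, e, map_div₀, map_div₀, Valuation.map_neg, Valuation.map_neg, h.v2β, hden]

/-- Compatibility of `t` with a ring endomorphism fixing `β`. -/
lemma tf_tau (σ : K →+* K) (hσβ : σ β = β)
    (τ : (legW a b).toAffine.Point →+ (legW a b).toAffine.Point)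
    (hτ : ∀ (x y : K) (hP : (legW a b).toAffine.Nonsingular x y),
      ∃ hP' : (legW a b).toAffine.Nonsingular (σ x) (σ y), τ (.some x y hP) = .some (σ x) (σ y) hP')
    (P : (legW a b).toAffine.Point) : tf a b β (τ P) = σ (tf a b β P) := by
  rcases P with _ | ⟨x, y, hP⟩
  · have e : (Point.zero : (legW a b).toAffine.Point) = 0 := rfl
    rw [e, map_zero, tf_zero, map_one]
  · obtain ⟨hP', e⟩ := hτ x y hP
    rw [e, tf_some, tf_some, map_div₀, map_sub, map_add, map_mul, hσβ]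

end val

end Fermat.Agent.S44lib.Q3
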