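/-
S44 library, block Q3 (helper8): **inertia elements fixing the `p`-th roots of the unramified
units act trivially on the `p`-torsion of a nodal curve `y² = x³ + a x² + b x` at residue
characteristic `p`**, when the valuation of `b` is divisible by `p`
(`v ρ ^ p = v b ^ 2` for some unramified `ρ`) and `v b < v p ^ 2`.

Abstract form: `K` a field with a valuation `v`, `σ` a ring endomorphism preserving `v` and
acting trivially on the residue field, `τ` the induced additive map on points, `F` a subfield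
fixed pointwise by `σ`, closed under square roots of units ("unramified"), such that `σ` fixes
every `p`-th root of every unit of `F` (the "peu ramifié" condition).
-/
import Mathlib
import Fermat.Agent.S05lib.NodeTorsion
import Fermat.Agent.S44lib.Q3.TFun
import Fermat.Agent.S44lib.Q3.RootsNearOne
import Fermat.Agent.S44lib.Q3.RatPts

set_option autoImplicit false
set_option linter.unusedSectionVars false

namespace Fermat.Agent.S44lib.Q3

open WeierstrassCurve WeierstrassCurve.Affine Fermat.Agent.S05lib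

section

variable {K : Type*} [Field K] [DecidableEq K] {Γ₀ : Type*} [LinearOrderedCommGroupWithZero Γ₀]
  {v : Valuation K Γ₀} {a b β : K}

/-- `t` of an `F`-rational point lies in `F` (if `β ∈ F`). -/
lemma tf_mem_of_isRat {F : Subfield K} (hFβ : β ∈ F) {P : (legW a b).toAffine.Point}
    (hP : IsRat a b F P) : tf a b β P ∈ F := by
  rcases P with _ | ⟨x, y, hxy⟩
  · exact F.one_mem
  · obtain ⟨hx, hy⟩ := hP
    rw [tf_some]
    exact F.div_mem (F.sub_mem hy (F.mul_mem hFβ hx)) (F.add_mem hy (F.mul_mem hFβ hx))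

lemma isE0_of_inE1 {P : (legW a b).toAffine.Point} (hP : InE1 v (legW a b).toAffine P) :
    IsE0 v a b P := by
  rcases P with _ | ⟨x, y, hxy⟩
  · trivial
  · have : 1 < v x := hP
    exact this.le

/-- A `p`-torsion point of the kernel of reduction whose parameter is smaller than `p` is zero. -/
lemma eq_zero_of_nsmul_of_small (h : NodeData v a b β) {L : (legW a b).toAffine.Point}
    (hL : InE1 v (legW a b).toAffine L) {p : ℕ} (hpL : p • L = 0)
    (hsmall : v (tf a b β L - 1) < v (p : K)) : L = 0 := by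
  have hW := h.integralModel
  rcases L with _ | ⟨x, y, hxy⟩
  · rfl
  · exfalso
    have hx : 1 < v x := hL
    rw [v_tf_sub_one_of_E1 h hxy hx] at hsmall
    have ht : v (x / y) < 1 := val_z_lt_one hW hxy.1 hx
    have hy := y_ne_zero_of_one_lt hW hxy.1 hx
    have hx0 : x ≠ 0 := by
      intro h0
      rw [h0, map_zero] at hx
      exact absurd hx (not_lt.mpr zero_le)
    have ht0 : v (x / y) ≠ 0 := (Valuation.ne_zero_iff v).mpr (div_ne_zero hx0 hy)
    have hzz : v (zc (Point.some x y hxy)) = v (x / y) := by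
      show v (-x / y) = v (x / y)
      rw [neg_div, Valuation.map_neg]
    obtain ⟨-, h2⟩ := zc_nsmul_estimate hW hL ht hzz.le p
    rw [hpL] at h2
    have e : v (zc (0 : (legW a b).toAffine.Point) - (p : K) * zc (Point.some x y hxy)) =
        v (p : K) * v (x / y) := by
      rw [zc_zero, zero_sub, Valuation.map_neg, map_mul, hzz]
    rw [e, pow_two] at h2
    have : v (p : K) ≤ v (x / y) := (mul_le_mul_iff_left₀ (zero_lt_iff.mpr ht0)).mp h2
    rw [hzz] at hsmall
    exact absurd this (not_le.mpr hsmall)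

/-- The translate `S = P + n • R` of a `p`-torsion point by a multiple of an unramified point
`R` on the plus branch: `S` has nonsingular reduction, `p • S` is `F`-rational, and for every
`σ` fixing `F` pointwise, `τ S - S = τ P - P` lies in the kernel of reduction.  (This is the
first part of `S05lib.NodeData.node_fixed`, which does not depend on the residue
characteristic; `S` does not depend on `σ`.) -/
theorem exists_E0_translate_unif (h : NodeData v a b β) (hsq : ∀ c : K, ∃ d : K, d ^ 2 = c)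
    {p : ℕ} (hp3 : 3 ≤ p)
    (F : Subfield K) (hFa : a ∈ F) (hFb : b ∈ F)
    (hFsq : ∀ z : K, z ^ 2 ∈ F → v (z ^ 2) = 1 → z ∈ F)
    {ρ : K} (hρF : ρ ∈ F) (hρ : v ρ ^ p = v b ^ 2)
    (P : (legW a b).toAffine.Point) (hP : p • P = 0) :
    ∃ S : (legW a b).toAffine.Point, IsE0 v a b S ∧ IsRat a b F (p • S) ∧
      ∀ (σ : K →+* K), (∀ x, v (σ x) ≤ 1 ↔ v x ≤ 1) → (∀ x, v x ≤ 1 → v (σ x - x) < 1) →
        (∀ z ∈ F, σ z = z) →
        ∀ τ : (legW a b).toAffine.Point →+ (legW a b).toAffine.Point,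
        (∀ (x y : K) (hP : (legW a b).toAffine.Nonsingular x y),
          ∃ hP' : (legW a b).toAffine.Nonsingular (σ x) (σ y),
            τ (.some x y hP) = .some (σ x) (σ y) hP') →
        τ S - S = τ P - P ∧ InE1 v (legW a b).toAffine (τ P - P) := by
  have hp0 : p ≠ 0 := by omega
  have hb0 := h.hb0
  have hW := h.integralModel
  have hc := h.comp_nsmul P p
  rw [hP, h.comp_zero] at hc
  obtain ⟨k, hk⟩ := h.exists_zpow_of_pow_cong_one hp0 hρ hc
  obtain ⟨hρb, hρ1⟩ := h.rho_near hp3 hρ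
  obtain ⟨Y, hR, hplus⟩ := h.exists_plus_point hsq hρb hρ1
  have hρ0 : ρ ≠ 0 := by
    rintro rfl
    rw [map_zero] at hρb
    exact not_lt.mpr zero_le hρb
  have hρv0 : v ρ ≠ 0 := (Valuation.ne_zero_iff v).mpr hρ0
  -- the auxiliary point is unramified
  have hYF : Y ∈ F := by
    have e1 := (leg_equation_iff a b ρ Y).mp hR.1
    have hvY : v Y = v ρ := h.v_y_of_plus hplus.2.2
    have hq : (Y / ρ) ^ 2 = ρ + a + b / ρ := by
      rw [div_pow, e1]
      field_simp
    have hqF : Y / ρ ∈ F := by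
      apply hFsq
      · rw [hq]
        exact F.add_mem (F.add_mem hρF hFa) (F.div_mem hFb hρF)
      · rw [map_pow, map_div₀, hvY, div_self hρv0, one_pow]
    have : Y = Y / ρ * ρ := by field_simp
    rw [this]
    exact F.mul_mem hqF hρF
  have hRrat : IsRat a b F (Point.some ρ Y hR) := ⟨hρF, hYF⟩
  -- choice of the multiple
  set n : ℕ := ((-k) % (p : ℤ)).toNat with hn
  have hpZ : (0 : ℤ) < p := by exact_mod_cast Nat.pos_of_ne_zero hp0
  have hn' : (n : ℤ) = (-k) % (p : ℤ) := by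
    rw [hn, Int.toNat_of_nonneg (Int.emod_nonneg _ hpZ.ne')]
  have hkn : k + n = (p : ℤ) * (-((-k) / (p : ℤ))) := by
    have := Int.emod_add_mul_ediv (-k) (p : ℤ)
    rw [hn']
    linarith
  set j : ℤ := -((-k) / (p : ℤ)) with hj
  set S := P + n • (Point.some ρ Y hR : (legW a b).toAffine.Point) with hS
  have hcS : Cong v b (comp v a b β S) 1 := by
    have c1 := h.comp_add P (n • (Point.some ρ Y hR : (legW a b).toAffine.Point))
    have c2 := h.comp_nsmul (Point.some ρ Y hR) n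
    rw [h.comp_of_plus hplus] at c2
    have c3 := Cong.mul hb0 (Cong.refl (comp v a b β P)) c2
    refine (c1.trans hb0 c3).trans hb0 ⟨j, ?_⟩
    rw [hk, one_mul, ← zpow_natCast (v ρ) n, ← zpow_add₀ hρv0, hkn, zpow_mul, zpow_natCast, hρ,
      ← zpow_ofNat, ← zpow_mul]
  have hSE0 := h.isE0_of_cong_one hcS
  have hSrat : IsRat a b F (p • S) := by
    have e : p • S = (p * n) • (Point.some ρ Y hR : (legW a b).toAffine.Point) := by
      rw [hS, smul_add, hP, zero_add, mul_smul]
    rw [e]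
    exact IsRat.nsmul hFa hFb hRrat _
  refine ⟨S, hSE0, hSrat, ?_⟩
  intro σ hσA hσ1 hFσ τ hτ
  have hτR : τ (.some ρ Y hR) = .some ρ Y hR := by
    obtain ⟨hR', e⟩ := hτ ρ Y hR
    rw [e, Point.some.injEq]
    exact ⟨hFσ ρ hρF, hFσ Y hYF⟩
  have hτS : τ S - S = τ P - P := by
    rw [hS, map_add, map_nsmul, hτR]
    abel
  refine ⟨hτS, ?_⟩
  -- `τ P - P` lies in the kernel of reduction
  rw [← hτS]
  rcases hSeq : S with _ | ⟨x, y, hS'⟩
  · have : (Point.zero : (legW a b).toAffine.Point) = 0 := rfl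
    rw [this, map_zero, sub_zero]
    exact inE1_zero
  · rw [hSeq] at hSE0
    have hx1 : 1 ≤ v x := hSE0
    obtain ⟨hS'', eS⟩ := hτ x y hS'
    rw [eS]
    rcases lt_or_eq_of_le hx1 with hlt | heq
    · rw [sub_eq_add_neg]
      apply InE1.add hW
      · rw [inE1_some]; exact one_lt_sigma hσA hlt
      · exact InE1.neg ((inE1_some hS').mpr hlt)
    · have hxσ : v (σ x) = 1 := sigma_eq_one hσA heq.symm
      obtain ⟨hy1, -⟩ := h.nonsingular_reduction ((leg_equation_iff a b x y).mp hS'.1) heq.symm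
      obtain ⟨hy1', hns⟩ :=
        h.nonsingular_reduction ((leg_equation_iff a b (σ x) (σ y)).mp hS''.1) hxσ
      exact inE1_sub_of_congr hW hS'' hS' hxσ.le hy1' heq.symm.le hy1
        (hσ1 x heq.symm.le) (hσ1 y hy1) hns

/-- The form of `exists_E0_translate_unif` for a single `σ`. -/
theorem exists_E0_translate (h : NodeData v a b β) (hsq : ∀ c : K, ∃ d : K, d ^ 2 = c)
    (σ : K →+* K) (hσA : ∀ x, v (σ x) ≤ 1 ↔ v x ≤ 1)
    (hσ1 : ∀ x, v x ≤ 1 → v (σ x - x) < 1)
    (τ : (legW a b).toAffine.Point →+ (legW a b).toAffine.Point)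
    (hτ : ∀ (x y : K) (hP : (legW a b).toAffine.Nonsingular x y),
      ∃ hP' : (legW a b).toAffine.Nonsingular (σ x) (σ y), τ (.some x y hP) = .some (σ x) (σ y) hP')
    {p : ℕ} (hp3 : 3 ≤ p)
    (F : Subfield K) (hFa : a ∈ F) (hFb : b ∈ F) (hFσ : ∀ z ∈ F, σ z = z)
    (hFsq : ∀ z : K, z ^ 2 ∈ F → v (z ^ 2) = 1 → z ∈ F)
    {ρ : K} (hρF : ρ ∈ F) (hρ : v ρ ^ p = v b ^ 2)
    (P : (legW a b).toAffine.Point) (hP : p • P = 0) :
    ∃ S : (legW a b).toAffine.Point, IsE0 v a b S ∧ τ S - S = τ P - P ∧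
      InE1 v (legW a b).toAffine (τ P - P) ∧ IsRat a b F (p • S) := by
  obtain ⟨S, hSE0, hSrat, hS⟩ := exists_E0_translate_unif h hsq hp3 F hFa hFb hFsq hρF hρ P hP
  obtain ⟨h1, h2⟩ := hS σ hσA hσ1 hFσ τ hτ
  exact ⟨S, hSE0, h1, h2, hSrat⟩

/-- **Sharp form**: for every `p`-torsion point `P` of a curve with a node at residue
characteristic `p` (`v b` divisible by `p` in the sense `v ρ ^ p = v b ^ 2`, `ρ` unramified,
`v b < v p ^ 2`) there is an unramified unit `u₀` such that every inertial `σ` fixing `ζ_p` and one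
`p`-th root of `u₀` fixes `P`. -/
theorem node_fixed_sharp (h : NodeData v a b β) (hsq : ∀ c : K, ∃ d : K, d ^ 2 = c)
    {p : ℕ} (hp3 : 3 ≤ p) (hbp : v b < v (p : K) ^ 2)
    {ζ : K} (hζ : IsPrimitiveRoot ζ p)
    (F : Subfield K) (hFa : a ∈ F) (hFb : b ∈ F)
    (hFsq : ∀ z : K, z ^ 2 ∈ F → v (z ^ 2) = 1 → z ∈ F)
    {ρ : K} (hρF : ρ ∈ F) (hρ : v ρ ^ p = v b ^ 2)
    (P : (legW a b).toAffine.Point) (hP : p • P = 0) :
    ∃ u₀ : K, u₀ ∈ F ∧ v u₀ = 1 ∧
      ∀ (σ : K →+* K), (∀ x, v (σ x) = v x) → (∀ x, v x ≤ 1 → v (σ x - x) < 1) →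
        (∀ z ∈ F, σ z = z) →
        ∀ τ : (legW a b).toAffine.Point →+ (legW a b).toAffine.Point,
        (∀ (x y : K) (hP : (legW a b).toAffine.Nonsingular x y),
          ∃ hP' : (legW a b).toAffine.Nonsingular (σ x) (σ y),
            τ (.some x y hP) = .some (σ x) (σ y) hP') →
        σ ζ = ζ → (∃ s : K, s ^ p = u₀ ∧ σ s = s) → τ P = P := by
  have hp0 : p ≠ 0 := by omega
  have hppos : 0 < p := Nat.pos_of_ne_zero hp0
  have hFβ : β ∈ F := hFsq β (by rw [h.hβ]; exact hFa) (by rw [h.hβ]; exact h.va)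
  obtain ⟨S, hSE0, hSrat, hSσ⟩ := exists_E0_translate_unif h hsq hp3 F hFa hFb hFsq hρF hρ P hP
  -- the unramified unit `u₀ = t (p • S)`
  obtain ⟨hS0E0, hpow⟩ := tf_nsmul_E0 (β := β) h hSE0 p
  refine ⟨tf a b β (p • S), tf_mem_of_isRat hFβ hSrat, v_tf_of_E0 h hS0E0, ?_⟩
  intro σ hσv hσ1 hFσ τ hτ hσζ hs
  obtain ⟨s, hs, hσs⟩ := hs
  have hσA : ∀ x, v (σ x) ≤ 1 ↔ v x ≤ 1 := fun x => by rw [hσv]
  have hσβ : σ β = β := hFσ β hFβ
  obtain ⟨hτS, hQ⟩ := hSσ σ hσA hσ1 hFσ τ hτ
  -- the defect `L = τ P - P = τ S - S`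
  set L := τ P - P with hL
  have hτS' : τ S = S + L := by rw [← hτS]; abel
  have hLE0 : IsE0 v a b L := isE0_of_inE1 hQ
  have hpL : p • L = 0 := by
    rw [hL, smul_sub, ← map_nsmul, hP, map_zero, sub_zero]
  set u₀ := tf a b β (p • S) with hu₀
  have hu₀v : v u₀ = 1 := v_tf_of_E0 h hS0E0
  have htSv : v (tf a b β S) = 1 := v_tf_of_E0 h hSE0
  have hsv : v s = 1 := by
    have : v s ^ p = 1 ^ p := by rw [← map_pow, hs, hu₀v, one_pow]
    exact (pow_left_inj₀ zero_le zero_le hp0).mp this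
  have hs0 : s ≠ 0 := by
    intro h0; rw [h0, map_zero] at hsv; exact zero_ne_one hsv
  have hu₀0 : u₀ ≠ 0 := by
    intro h0; rw [h0, map_zero] at hu₀v; exact zero_ne_one hu₀v
  -- `g = t S / s` has `g ^ p ≡ 1` modulo `b`
  set g := tf a b β S / s with hg
  have hgv : v g = 1 := by rw [hg, map_div₀, htSv, hsv, div_one]
  have hgp : v (g ^ p - 1) ≤ v b := by
    have e : g ^ p - 1 = -(u₀ - tf a b β S ^ p) / u₀ := by
      rw [hg, div_pow, hs]
      field_simp
      ring
    rw [e, map_div₀, hu₀v, div_one, Valuation.map_neg]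
    exact hpow
  -- `g` is close to a root of unity, which is fixed by `σ`
  obtain ⟨i, -, hi⟩ := exists_root_of_unity_near v hppos hζ g
  have hσζi : σ (ζ ^ i) = ζ ^ i := by rw [map_pow, hσζ]
  have hpv1 : v (p : K) ≤ 1 := val_natCast_le_one p
  have hσg : v (σ g - g) * v (p : K) ≤ v b := by
    have e : σ g - g = σ (g - ζ ^ i) - (g - ζ ^ i) := by
      rw [map_sub, hσζi]; ring
    have : v (σ g - g) ≤ v (g - ζ ^ i) := by
      rw [e]
      exact Valuation.map_sub_le _ (by rw [hσv]) le_rfl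
    exact le_trans (mul_le_mul' this le_rfl) (le_trans hi hgp)
  -- compare `t (τ S)` computed in two ways
  have htS : tf a b β S = s * g := by rw [hg]; field_simp
  have htτ : tf a b β (τ S) = s * σ g := by
    rw [tf_tau σ hσβ τ hτ S, htS, map_mul, hσs]
  have hadd := tf_add_E0 (β := β) h hSE0 hLE0
  rw [← hτS', htτ, htS] at hadd
  have h1 : v (σ g - g * tf a b β L) ≤ v b := by
    have e : s * σ g - s * g * tf a b β L = s * (σ g - g * tf a b β L) := by ring
    rw [e, map_mul, hsv, one_mul] at hadd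
    exact hadd
  have h2 : v (tf a b β L - 1) * v (p : K) ≤ v b := by
    have e : tf a b β L - 1 = ((σ g - g) - (σ g - g * tf a b β L)) / g := by
      have hg0 : g ≠ 0 := by
        intro h0; rw [h0, map_zero] at hgv; exact zero_ne_one hgv
      field_simp
      ring
    rw [e, map_div₀, hgv, div_one]
    rcases le_total (v (σ g - g)) (v (σ g - g * tf a b β L)) with hle | hle
    · calc v (σ g - g - (σ g - g * tf a b β L)) * v (p : K)
          ≤ v (σ g - g * tf a b β L) * v (p : K) :=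
            mul_le_mul' (Valuation.map_sub_le _ hle le_rfl) le_rfl
        _ ≤ v b * 1 := mul_le_mul' h1 hpv1
        _ = v b := mul_one _
    · calc v (σ g - g - (σ g - g * tf a b β L)) * v (p : K)
          ≤ v (σ g - g) * v (p : K) :=
            mul_le_mul' (Valuation.map_sub_le _ le_rfl hle) le_rfl
        _ ≤ v b := hσg
  -- conclusion
  have hsmall : v (tf a b β L - 1) < v (p : K) := by
    by_contra hcon
    push Not at hcon
    have : v (p : K) ^ 2 ≤ v b := by
      calc v (p : K) ^ 2 = v (p : K) * v (p : K) := pow_two _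
        _ ≤ v (tf a b β L - 1) * v (p : K) := mul_le_mul' hcon le_rfl
        _ ≤ v b := h2
    exact absurd this (not_le.mpr hbp)
  have hL0 : L = 0 := eq_zero_of_nsmul_of_small h hQ hpL hsmall
  exact sub_eq_zero.mp hL0

/-- **Peu ramifié inertia acts trivially on the `p`-torsion of a curve with a node at residue
characteristic `p`**, when `v b` is divisible by `p` (in the sense `v ρ ^ p = v b ^ 2`, `ρ`
unramified) and `v b < v p ^ 2`. -/
theorem node_fixed_peu (h : NodeData v a b β) (hsq : ∀ c : K, ∃ d : K, d ^ 2 = c)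
    (σ : K →+* K) (hσv : ∀ x, v (σ x) = v x)
    (hσ1 : ∀ x, v x ≤ 1 → v (σ x - x) < 1)
    (τ : (legW a b).toAffine.Point →+ (legW a b).toAffine.Point)
    (hτ : ∀ (x y : K) (hP : (legW a b).toAffine.Nonsingular x y),
      ∃ hP' : (legW a b).toAffine.Nonsingular (σ x) (σ y), τ (.some x y hP) = .some (σ x) (σ y) hP')
    {p : ℕ} (hp3 : 3 ≤ p) (hbp : v b < v (p : K) ^ 2)
    {ζ : K} (hζ : IsPrimitiveRoot ζ p) (hroot : ∀ c : K, ∃ d : K, d ^ p = c)
    (F : Subfield K) (hFa : a ∈ F) (hFb : b ∈ F) (hFσ : ∀ z ∈ F, σ z = z)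
    (hFsq : ∀ z : K, z ^ 2 ∈ F → v (z ^ 2) = 1 → z ∈ F)
    (hpeu : ∀ z : K, z ^ p ∈ F → v (z ^ p) = 1 → σ z = z)
    {ρ : K} (hρF : ρ ∈ F) (hρ : v ρ ^ p = v b ^ 2)
    (P : (legW a b).toAffine.Point) (hP : p • P = 0) : τ P = P := by
  obtain ⟨u₀, hu₀F, hu₀v, hfix⟩ := node_fixed_sharp h hsq hp3 hbp hζ F hFa hFb hFsq hρF hρ P hP
  obtain ⟨s, hs⟩ := hroot u₀
  have hσs : σ s = s := hpeu s (by rw [hs]; exact hu₀F) (by rw [hs]; exact hu₀v)
  have hσζ : σ ζ = ζ :=
    hpeu ζ (by rw [hζ.pow_eq_one]; exact F.one_mem) (by rw [hζ.pow_eq_one]; exact map_one v)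
  exact hfix σ hσv hσ1 hFσ τ hτ hσζ ⟨s, hs, hσs⟩

end

end Fermat.Agent.S44lib.Q3
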