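/-
S44 library, block Q3 (helper8): the `p`-torsion of the kernel of reduction of the node model
`y² = x³ + a x² + b x` (`v b < v p ^ 2`) has at most `p` elements: the branch ratio `t` embeds
it into `μ_p` up to `1 + (b/p)·(integers)`.
-/
import Mathlib
import Fermat.Agent.S44lib.Q3.NodePeu

set_option autoImplicit false
set_option linter.unusedSectionVars false

namespace Fermat.Agent.S44lib.Q3

open WeierstrassCurve WeierstrassCurve.Affine Fermat.Agent.S05lib

section

variable {K : Type*} [Field K] [DecidableEq K] {Γ₀ : Type*} [LinearOrderedCommGroupWithZero Γ₀]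
  {v : Valuation K Γ₀} {a b β : K}

lemma isE0_neg {P : (legW a b).toAffine.Point} (hP : IsE0 v a b P) : IsE0 v a b (-P) := by
  rcases P with _ | ⟨x, y, hxy⟩
  · exact hP
  · rw [Point.neg_some]; exact hP

/-- `t (-P) = (t P)⁻¹` on `E₀`. -/
lemma tf_neg_of_E0 (h : NodeData v a b β) {P : (legW a b).toAffine.Point} (hP : IsE0 v a b P) :
    tf a b β (-P) = (tf a b β P)⁻¹ := by
  rcases P with _ | ⟨x, y, hxy⟩
  · show tf a b β (0 : (legW a b).toAffine.Point) = (tf a b β 0)⁻¹
    rw [tf_zero, inv_one]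
  · have hx : 1 ≤ v x := hP
    obtain ⟨b1, c1⟩ := v_branch_eq h ((leg_equation_iff a b x y).mp hxy.1) hx
    have n1 : y + β * x ≠ 0 := (Valuation.ne_zero_iff v).mp c1
    have n2 : y - β * x ≠ 0 := (Valuation.ne_zero_iff v).mp (by rw [b1]; exact c1)
    have n3 : -y + β * x ≠ 0 := by
      intro h0; apply n2; linear_combination -h0
    rw [Point.neg_some, tf_some, tf_some, leg_negY, inv_div]
    field_simp
    ring

/-- Two `p`-torsion points of the kernel of reduction with close values of `t` are equal. -/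
theorem eq_of_tf_near (h : NodeData v a b β) {p : ℕ} (hbp : v b < v (p : K) ^ 2)
    {L L' : (legW a b).toAffine.Point} (hL : InE1 v (legW a b).toAffine L)
    (hL' : InE1 v (legW a b).toAffine L') (hpL : p • L = 0) (hpL' : p • L' = 0)
    (hnear : v (tf a b β L - tf a b β L') * v (p : K) ≤ v b) : L = L' := by
  have hW := h.integralModel
  have hE := isE0_of_inE1 hL
  have hE' := isE0_of_inE1 hL'
  have hD : InE1 v (legW a b).toAffine (L - L') := by
    rw [sub_eq_add_neg]; exact InE1.add hW hL (InE1.neg hL')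
  have hpD : p • (L - L') = 0 := by rw [smul_sub, hpL, hpL', sub_self]
  have hpv1 : v (p : K) ≤ 1 := val_natCast_le_one p
  have hv' : v (tf a b β L') = 1 := v_tf_of_E0 h hE'
  have hne' : tf a b β L' ≠ 0 := tf_ne_zero_of_E0 h hE'
  have hadd := tf_add_E0 (β := β) h hE (isE0_neg hE')
  rw [← sub_eq_add_neg, tf_neg_of_E0 h hE'] at hadd
  have h2 : v (tf a b β (L - L') - 1) * v (p : K) ≤ v b := by
    have e : tf a b β (L - L') - 1 = (tf a b β (L - L') - tf a b β L * (tf a b β L')⁻¹) +
        (tf a b β L - tf a b β L') / tf a b β L' := by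
      field_simp
      ring
    rw [e]
    have h3 : v ((tf a b β L - tf a b β L') / tf a b β L') = v (tf a b β L - tf a b β L') := by
      rw [map_div₀, hv', div_one]
    rcases le_total (v (tf a b β (L - L') - tf a b β L * (tf a b β L')⁻¹))
      (v ((tf a b β L - tf a b β L') / tf a b β L')) with hle | hle
    · calc v (tf a b β (L - L') - tf a b β L * (tf a b β L')⁻¹ +
            (tf a b β L - tf a b β L') / tf a b β L') * v (p : K)
          ≤ v ((tf a b β L - tf a b β L') / tf a b β L') * v (p : K) :=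
            mul_le_mul' (Valuation.map_add_le _ hle le_rfl) le_rfl
        _ ≤ v b := by rw [h3]; exact hnear
    · calc v (tf a b β (L - L') - tf a b β L * (tf a b β L')⁻¹ +
            (tf a b β L - tf a b β L') / tf a b β L') * v (p : K)
          ≤ v (tf a b β (L - L') - tf a b β L * (tf a b β L')⁻¹) * v (p : K) :=
            mul_le_mul' (Valuation.map_add_le _ le_rfl hle) le_rfl
        _ ≤ v b * 1 := mul_le_mul' hadd hpv1
        _ = v b := mul_one _
  have hsmall : v (tf a b β (L - L') - 1) < v (p : K) := by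
    by_contra hcon
    push Not at hcon
    have : v (p : K) ^ 2 ≤ v b := by
      calc v (p : K) ^ 2 = v (p : K) * v (p : K) := pow_two _
        _ ≤ v (tf a b β (L - L') - 1) * v (p : K) := mul_le_mul' hcon le_rfl
        _ ≤ v b := h2
    exact absurd this (not_le.mpr hbp)
  exact sub_eq_zero.mp (eq_zero_of_nsmul_of_small h hD hpD hsmall)

/-- A `p`-torsion point of `E₀` has `t` close to a `p`-th root of unity. -/
theorem exists_index_of_torsion (h : NodeData v a b β) {p : ℕ} (hp : 0 < p) {ζ : K}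
    (hζ : IsPrimitiveRoot ζ p) {L : (legW a b).toAffine.Point} (hL : IsE0 v a b L)
    (hpL : p • L = 0) : ∃ i : Fin p, v (tf a b β L - ζ ^ (i : ℕ)) * v (p : K) ≤ v b := by
  obtain ⟨-, hpow⟩ := tf_nsmul_E0 (β := β) h hL p
  rw [hpL, tf_zero] at hpow
  obtain ⟨i, hi, hle⟩ := exists_root_of_unity_near v hp hζ (tf a b β L)
  refine ⟨⟨i, hi⟩, le_trans hle ?_⟩
  have e : tf a b β L ^ p - 1 = -(1 - tf a b β L ^ p) := by ring
  rw [e, Valuation.map_neg]
  exact hpow

/-- The index map: an injection of the `p`-torsion of the kernel of reduction into `Fin p`. -/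
theorem exists_injective_index (h : NodeData v a b β) {p : ℕ} (hp : 0 < p)
    (hbp : v b < v (p : K) ^ 2) {ζ : K} (hζ : IsPrimitiveRoot ζ p) :
    ∃ f : {L : (legW a b).toAffine.Point // InE1 v (legW a b).toAffine L ∧ p • L = 0} → Fin p,
      Function.Injective f := by
  classical
  have hex : ∀ L : {L : (legW a b).toAffine.Point // InE1 v (legW a b).toAffine L ∧ p • L = 0},
      ∃ i : Fin p, v (tf a b β L.1 - ζ ^ (i : ℕ)) * v (p : K) ≤ v b := fun L =>
    exists_index_of_torsion h hp hζ (isE0_of_inE1 L.2.1) L.2.2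
  choose f hf using hex
  refine ⟨f, ?_⟩
  intro L L' hLL'
  apply Subtype.ext
  apply eq_of_tf_near h hbp L.2.1 L'.2.1 L.2.2 L'.2.2
  have e : tf a b β L.1 - tf a b β L'.1 =
      (tf a b β L.1 - ζ ^ (f L : ℕ)) - (tf a b β L'.1 - ζ ^ (f L : ℕ)) := by ring
  rw [e]
  have h1 := hf L
  have h2 := hf L'
  rw [← hLL'] at h2
  rcases le_total (v (tf a b β L.1 - ζ ^ (f L : ℕ))) (v (tf a b β L'.1 - ζ ^ (f L : ℕ)))
    with hle | hle
  · exact le_trans (mul_le_mul' (Valuation.map_sub_le _ hle le_rfl) le_rfl) h2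
  · exact le_trans (mul_le_mul' (Valuation.map_sub_le _ le_rfl hle) le_rfl) h1

/-- **The `p`-torsion of the kernel of reduction is finite with at most `p` elements.** -/
theorem card_e1_torsion_le (h : NodeData v a b β) {p : ℕ} (hp : 0 < p)
    (hbp : v b < v (p : K) ^ 2) {ζ : K} (hζ : IsPrimitiveRoot ζ p) :
    Finite {L : (legW a b).toAffine.Point // InE1 v (legW a b).toAffine L ∧ p • L = 0} ∧
    Nat.card {L : (legW a b).toAffine.Point // InE1 v (legW a b).toAffine L ∧ p • L = 0} ≤ p := by
  obtain ⟨f, hinj⟩ := exists_injective_index h hp hbp hζ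
  refine ⟨Finite.of_injective f hinj, ?_⟩
  have := Nat.card_le_card_of_injective f hinj
  rwa [Nat.card_fin] at this

/-- An inertial `σ` fixing `ζ_p` fixes the `p`-torsion of the kernel of reduction pointwise. -/
theorem e1_torsion_fixed_of_zeta (h : NodeData v a b β) {p : ℕ} (hp : 0 < p)
    (hbp : v b < v (p : K) ^ 2) {ζ : K} (hζ : IsPrimitiveRoot ζ p)
    (σ : K →+* K) (hσv : ∀ x, v (σ x) = v x) (hσβ : σ β = β)
    (τ : (legW a b).toAffine.Point →+ (legW a b).toAffine.Point)
    (hτ : ∀ (x y : K) (hP : (legW a b).toAffine.Nonsingular x y),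
      ∃ hP' : (legW a b).toAffine.Nonsingular (σ x) (σ y), τ (.some x y hP) = .some (σ x) (σ y) hP')
    (hσζ : σ ζ = ζ) {L : (legW a b).toAffine.Point} (hL : InE1 v (legW a b).toAffine L)
    (hpL : p • L = 0) : τ L = L := by
  have hτL : InE1 v (legW a b).toAffine (τ L) := by
    rcases hLeq : L with _ | ⟨x, y, hxy⟩
    · have : (Point.zero : (legW a b).toAffine.Point) = 0 := rfl
      rw [this, map_zero]
      exact inE1_zero
    · obtain ⟨hP', e⟩ := hτ x y hxy
      rw [e, inE1_some, hσv]
      rw [hLeq, inE1_some] at hL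
      exact hL
  have hpτL : p • τ L = 0 := by rw [← map_nsmul, hpL, map_zero]
  obtain ⟨i, hi⟩ := exists_index_of_torsion h hp hζ (isE0_of_inE1 hL) hpL
  apply eq_of_tf_near h hbp hτL hL hpτL hpL
  rw [tf_tau σ hσβ τ hτ L]
  have hσζi : σ (ζ ^ (i : ℕ)) = ζ ^ (i : ℕ) := by rw [map_pow, hσζ]
  have e : σ (tf a b β L) - tf a b β L =
      σ (tf a b β L - ζ ^ (i : ℕ)) - (tf a b β L - ζ ^ (i : ℕ)) := by
    rw [map_sub, hσζi]; ring
  rw [e]
  exact le_trans (mul_le_mul' (Valuation.map_sub_le _ (by rw [hσv]) le_rfl) le_rfl) hi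

end

end Fermat.Agent.S44lib.Q3
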