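/-
S44 library, block Q3 (helper8): **the inertia line of the Frey curve at `p ∣ a b c`**:
there is a proper inertia-stable subgroup `L` of `E[p]` (the `p`-torsion of the kernel of
reduction, `#L ≤ p < p² = #E[p]`) such that inertia acts trivially on `E[p] / L`.
-/
import Mathlib
import Fermat.Prelude.Def_FLTPrelim_FreyPackage
import Fermat.Prelude.Def_FLTPrelim_Ramification
import Fermat.Agent.S05lib.FreyTransfer
import Fermat.Agent.S13lib.LocalP
import Fermat.Agent.S13lib.LegWP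
import Fermat.Agent.S13lib.TorsionEquiv
import Fermat.Agent.S13lib.ValAut
import Fermat.Agent.S41lib.NE.TorsionCard
import Fermat.Agent.S44lib.Q3.KerCount
import Fermat.Agent.S44lib.Q3.InertiaField

set_option autoImplicit false
set_option linter.unusedSectionVars false

namespace Fermat.Agent.S44lib.Q3

open WeierstrassCurve WeierstrassCurve.Affine WeierstrassCurve.Affine.Point
open Fermat.Agent.S05lib Fermat.Agent.S13lib

local notation "Kbar" => AlgebraicClosure ℚ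

/-- The curve `E` over `ℚ` has an "inertia line" at `A` (residue characteristic `p`): a proper
inertia-stable cyclic subgroup `L` of `E[p]` with trivial inertia action on `E[p] / L`, fixed
pointwise by the inertia elements fixing `μ_p`; and every point `y` of `E[p]` is fixed by the
inertia elements fixing `μ_p` and a `p`-th root of an inertia-invariant unit `u` (depending on
`y`). -/
def HasInertiaLine (E : Affine ℚ) (p : ℕ) (A : ValuationSubring Kbar) : Prop :=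
  ∃ L : AddSubgroup (Submodule.torsionBy ℤ (E⁄Kbar).Point p), L ≠ ⊤ ∧
    (∀ σ ∈ A.inertiaSubgroupIn ℚ, ∀ x ∈ L, σ • x ∈ L) ∧
    (∀ σ ∈ A.inertiaSubgroupIn ℚ,
      ∀ x : Submodule.torsionBy ℤ (E⁄Kbar).Point p, σ • x - x ∈ L) ∧
    (∃ ℓ₀ ∈ L, ∀ x ∈ L, ∃ k : ℤ, x = k • ℓ₀) ∧
    (∀ σ ∈ A.inertiaSubgroupIn ℚ, (∀ ω : Kbar, ω ^ p = 1 → σ ω = ω) → ∀ x ∈ L, σ • x = x) ∧
    (∀ y : Submodule.torsionBy ℤ (E⁄Kbar).Point p, ∃ u : Kbar,
      (∀ σ' ∈ A.inertiaSubgroupIn ℚ, σ' u = u) ∧ A.valuation u = 1 ∧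
      ∀ σ ∈ A.inertiaSubgroupIn ℚ, (∀ ω : Kbar, ω ^ p = 1 → σ ω = ω) →
        (∃ s : Kbar, s ^ p = u ∧ σ s = s) → σ • y = y)

/-- Transfer along a Galois-equivariant isomorphism of the groups of points. -/
theorem HasInertiaLine.of_equiv {E E' : Affine ℚ} (e : (E⁄Kbar).Point ≃+ (E'⁄Kbar).Point)
    (he : ∀ (σ : Kbar ≃ₐ[ℚ] Kbar) (P : (E⁄Kbar).Point), e (σ • P) = σ • e P) {p : ℕ}
    {A : ValuationSubring Kbar} (h : HasInertiaLine E' p A) : HasInertiaLine E p A := by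
  obtain ⟨L', hL'top, hL'st, hL'triv, ⟨ℓ₀', hℓ₀', hcyc'⟩, hL'fix, hsharp'⟩ := h
  set f : Submodule.torsionBy ℤ (E⁄Kbar).Point p →+ Submodule.torsionBy ℤ (E'⁄Kbar).Point p :=
    ((torsionEquiv e p : TorsPt E Kbar p ≃ₗ[ZMod p] TorsPt E' Kbar p) :
      TorsPt E Kbar p →ₗ[ZMod p] TorsPt E' Kbar p).toAddMonoidHom with hf
  have hfapp : ∀ x, f x = torsionEquiv e p x := fun x => rfl
  refine ⟨L'.comap f, ?_, ?_, ?_, ?_, ?_, ?_⟩
  · intro htop
    apply hL'top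
    rw [eq_top_iff]
    intro y _
    have : (torsionEquiv e p).symm y ∈ L'.comap f := by rw [htop]; trivial
    rw [AddSubgroup.mem_comap, hfapp, LinearEquiv.apply_symm_apply] at this
    exact this
  · intro σ hσ x hx
    rw [AddSubgroup.mem_comap, hfapp] at hx ⊢
    rw [torsionEquiv_smul e he]
    exact hL'st σ hσ _ hx
  · intro σ hσ x
    rw [AddSubgroup.mem_comap, map_sub, hfapp, hfapp, torsionEquiv_smul e he]
    exact hL'triv σ hσ _
  · refine ⟨(torsionEquiv e p).symm ℓ₀', ?_, ?_⟩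
    · rw [AddSubgroup.mem_comap, hfapp, LinearEquiv.apply_symm_apply]
      exact hℓ₀'
    · intro x hx
      rw [AddSubgroup.mem_comap, hfapp] at hx
      obtain ⟨k, hk⟩ := hcyc' _ hx
      refine ⟨k, ?_⟩
      apply (torsionEquiv e p).injective
      rw [hk, map_zsmul, LinearEquiv.apply_symm_apply]
  · intro σ hσ hω x hx
    rw [AddSubgroup.mem_comap, hfapp] at hx
    apply (torsionEquiv e p).injective
    rw [torsionEquiv_smul e he]
    exact hL'fix σ hσ hω _ hx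
  · intro y
    obtain ⟨u, hu, huv, hfix⟩ := hsharp' (torsionEquiv e p y)
    refine ⟨u, hu, huv, ?_⟩
    intro σ hσ hω hs
    apply (torsionEquiv e p).injective
    rw [torsionEquiv_smul e he]
    exact hfix σ hσ hω hs

theorem HasInertiaLine.of_variableChange_eq (E E' : Affine ℚ) (C : VariableChange ℚ)
    (hE : C • E = E') {p : ℕ} {A : ValuationSubring Kbar} (h : HasInertiaLine E' p A) :
    HasInertiaLine E p A := by
  subst hE
  refine HasInertiaLine.of_equiv (S51lib.vcEquivBaseChange (K := Kbar) E C).symm ?_ h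
  intro σ P
  apply (S51lib.vcEquivBaseChange (K := Kbar) E C).injective
  rw [AddEquiv.apply_symm_apply, S51lib.vcEquivBaseChange_smul, AddEquiv.apply_symm_apply]

section legW

variable {p : ℕ} [hp : Fact p.Prime]

/-- **The inertia line of `y² = x³ + a x² + b x`** for integers `p ∤ a`, `p ^ 3 ∣ b`,
`v r ^ p = v b ^ 2`: the `p`-torsion of the kernel of reduction. -/
theorem legW_hasInertiaLine (hp3 : 3 ≤ p) (a b r : ℤ) (ha : ¬(p : ℤ) ∣ a)
    (hb : (p : ℤ) ^ 3 ∣ b) (hb0 : b ≠ 0) (hd : a ^ 2 - 4 * b ≠ 0)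
    (A : ValuationSubring Kbar) (hA : A.LiesOverPrime p)
    (hr : A.valuation (r : Kbar) ^ p = A.valuation (b : Kbar) ^ 2) :
    HasInertiaLine (legW ((a : ℤ) : ℚ) ((b : ℤ) : ℚ) : Affine ℚ) p A := by
  have hpA : A.valuation ((p : ℕ) : Kbar) < 1 := hA
  have hpb : (p : ℤ) ∣ b := dvd_trans (dvd_pow_self _ (by norm_num)) hb
  have eA : algebraMap ℚ Kbar ((a : ℤ) : ℚ) = (a : Kbar) := algebraMap_intCast a
  have eB : algebraMap ℚ Kbar ((b : ℤ) : ℚ) = (b : Kbar) := algebraMap_intCast b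
  obtain ⟨β, hnode0⟩ := exists_nodeData_int A hp.out hp3 hpA a b ha hpb hb0
  have hnode : NodeData A.valuation (algebraMap ℚ Kbar ((a : ℤ) : ℚ))
      (algebraMap ℚ Kbar ((b : ℤ) : ℚ)) β := by rw [eA, eB]; exact hnode0
  have hW := hnode.integralModel
  have hFa : algebraMap ℚ Kbar ((a : ℤ) : ℚ) ∈ inertiaField A := by
    rw [eA]; exact intCast_mem_inertiaField A a
  have hFb : algebraMap ℚ Kbar ((b : ℤ) : ℚ) ∈ inertiaField A := by
    rw [eB]; exact intCast_mem_inertiaField A b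
  have hr' : A.valuation (r : Kbar) ^ p =
      A.valuation (algebraMap ℚ Kbar ((b : ℤ) : ℚ)) ^ 2 := by rw [eB]; exact hr
  -- `v b < v p ^ 2`
  have hp0K : ((p : ℕ) : Kbar) ≠ 0 := by exact_mod_cast hp.out.ne_zero
  have hpv0 : 0 < A.valuation ((p : ℕ) : Kbar) :=
    zero_lt_iff.mpr ((Valuation.ne_zero_iff _).mpr hp0K)
  have hbp : A.valuation (algebraMap ℚ Kbar ((b : ℤ) : ℚ)) < A.valuation ((p : ℕ) : Kbar) ^ 2 := by
    rw [eB]
    obtain ⟨m, rfl⟩ := hb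
    push_cast
    rw [map_mul, map_pow]
    calc A.valuation (p : Kbar) ^ 3 * A.valuation (m : Kbar)
        ≤ A.valuation (p : Kbar) ^ 3 * 1 := mul_le_mul' le_rfl (vint_le_one A m)
      _ = A.valuation (p : Kbar) ^ 3 := mul_one _
      _ < A.valuation (p : Kbar) ^ 2 := pow_lt_pow_right_of_lt_one₀ hpv0 hpA (by norm_num)
  have : NeZero ((p : ℕ) : ℚ) := ⟨by exact_mod_cast hp.out.ne_zero⟩
  obtain ⟨ζ, hζ⟩ := HasEnoughRootsOfUnity.exists_primitiveRoot Kbar p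
  have hp0 : p ≠ 0 := hp.out.ne_zero
  have hsharpσ : ∀ σ ∈ A.inertiaSubgroupIn ℚ,
      (∀ x, A.valuation (σ x) = A.valuation x) ∧
      (∀ x, A.valuation x ≤ 1 → A.valuation (σ x - x) < 1) := by
    intro σ hσ
    obtain ⟨hσA, hσ1⟩ := inertia_facts A σ hσ
    have : Algebra.IsAlgebraic ℚ Kbar := AlgebraicClosure.isAlgebraic ℚ
    exact ⟨S13lib.val_algEquiv_eq σ hσA, hσ1⟩
  have hFβ : β ∈ inertiaField A :=
    sqrt_mem_inertiaField A hnode.h2 β (by rw [hnode.hβ]; exact hFa)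
      (by rw [hnode.hβ]; exact hnode.va)
  have htors : ∀ x : Submodule.torsionBy ℤ
      ((legW ((a : ℤ) : ℚ) ((b : ℤ) : ℚ) : Affine ℚ)⁄Kbar).Point p,
      p • eLeg ((a : ℤ) : ℚ) ((b : ℤ) : ℚ) (x : _) = 0 := by
    intro x
    have hx := (Submodule.mem_torsionBy_iff _ _).mp x.2
    rw [natCast_zsmul] at hx
    rw [← map_nsmul, hx, _root_.map_zero]
  set L' : AddSubgroup (Submodule.torsionBy ℤ
      ((legW ((a : ℤ) : ℚ) ((b : ℤ) : ℚ) : Affine ℚ)⁄Kbar).Point p) :=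
    (kerRedV (p := p) ((a : ℤ) : ℚ) ((b : ℤ) : ℚ) hW).toAddSubgroup with hL'
  have hmemL' : ∀ x, x ∈ L' ↔ InE1 A.valuation (legW (algebraMap ℚ Kbar ((a : ℤ) : ℚ))
      (algebraMap ℚ Kbar ((b : ℤ) : ℚ))).toAffine (eLeg ((a : ℤ) : ℚ) ((b : ℤ) : ℚ) x.1) := by
    intro x
    rw [hL', Submodule.mem_toAddSubgroup, mem_kerRedV]
  -- cardinalities
  have hΔq : (legW ((a : ℤ) : ℚ) ((b : ℤ) : ℚ)).Δ ≠ 0 := legW_Δ_ne_zero a b hb0 hd
  have hΔb : ((legW ((a : ℤ) : ℚ) ((b : ℤ) : ℚ) : Affine ℚ)⁄Kbar).Δ ≠ 0 := by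
    have e : ((legW ((a : ℤ) : ℚ) ((b : ℤ) : ℚ) : Affine ℚ)⁄Kbar).Δ =
        algebraMap ℚ Kbar (legW ((a : ℤ) : ℚ) ((b : ℤ) : ℚ)).Δ :=
      WeierstrassCurve.map_Δ _ _
    rw [e]
    exact (map_ne_zero_iff _ (algebraMap ℚ Kbar).injective).mpr hΔq
  have hcard := S41lib.NE.card_torsionBy_eq_sq
    ((legW ((a : ℤ) : ℚ) ((b : ℤ) : ℚ) : Affine ℚ)⁄Kbar) hΔb p hp.out.two_le
  obtain ⟨hfin, hle⟩ := card_e1_torsion_le hnode hp.out.pos hbp hζ
  let g : L' → {L : (legW (algebraMap ℚ Kbar ((a : ℤ) : ℚ))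
        (algebraMap ℚ Kbar ((b : ℤ) : ℚ))).toAffine.Point //
        InE1 A.valuation (legW (algebraMap ℚ Kbar ((a : ℤ) : ℚ))
          (algebraMap ℚ Kbar ((b : ℤ) : ℚ))).toAffine L ∧ p • L = 0} := fun x =>
    ⟨eLeg _ _ x.1.1, (hmemL' x.1).mp x.2, htors x.1⟩
  have hg : Function.Injective g := by
    intro x y hxy
    apply Subtype.ext
    apply Subtype.ext
    have := congrArg Subtype.val hxy
    exact (eLeg _ _).injective this
  have hcardL' : Nat.card L' ≤ p := le_trans (Nat.card_le_card_of_injective g hg) hle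
  have hfinV : Finite (Submodule.torsionBy ℤ
      ((legW ((a : ℤ) : ℚ) ((b : ℤ) : ℚ) : Affine ℚ)⁄Kbar).Point p) := by
    apply Nat.finite_of_card_ne_zero
    rw [hcard]
    exact pow_ne_zero 2 hp0
  have hp2 := hp.out.two_le
  refine ⟨L', ?_, ?_, ?_, ?_, ?_, ?_⟩
  · -- the line is proper: it has at most `p < p ^ 2` elements
    intro htop
    rw [htop, AddSubgroup.card_top, hcard] at hcardL'
    nlinarith
  · -- the kernel of reduction is inertia-stable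
    intro σ hσ x hx
    obtain ⟨hσA, -⟩ := inertia_facts A σ hσ
    rw [hmemL'] at hx ⊢
    have e1 : ((σ • x : Submodule.torsionBy ℤ
        ((legW ((a : ℤ) : ℚ) ((b : ℤ) : ℚ) : Affine ℚ)⁄Kbar).Point p) :
        ((legW ((a : ℤ) : ℚ) ((b : ℤ) : ℚ) : Affine ℚ)⁄Kbar).Point) = σ • (x : _) := rfl
    rw [e1, eLeg_smul]
    exact inE1_tau (σ : Kbar →+* Kbar) (fun y => hσA y) (tauLeg _ _ σ) (tauLeg_some _ _ σ) hx
  · -- inertia acts trivially modulo the kernel of reduction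
    intro σ hσ x
    obtain ⟨hσA, hσ1⟩ := inertia_facts A σ hσ
    rw [hmemL']
    have e1 : ((σ • x - x : Submodule.torsionBy ℤ
        ((legW ((a : ℤ) : ℚ) ((b : ℤ) : ℚ) : Affine ℚ)⁄Kbar).Point p) :
        ((legW ((a : ℤ) : ℚ) ((b : ℤ) : ℚ) : Affine ℚ)⁄Kbar).Point) =
        σ • (x : ((legW ((a : ℤ) : ℚ) ((b : ℤ) : ℚ) : Affine ℚ)⁄Kbar).Point) - x := rfl
    rw [e1, map_sub, eLeg_smul]
    obtain ⟨S, -, -, hQ, -⟩ := exists_E0_translate hnode exists_sq_Kbar (σ : Kbar →+* Kbar)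
      (fun y => hσA y) (fun y hy => hσ1 y hy) (tauLeg _ _ σ) (tauLeg_some _ _ σ) hp3
      (inertiaField A) hFa hFb (fun z hz => fixed_of_mem_inertiaField hσ hz)
      (sqrt_mem_inertiaField A hnode.h2) (intCast_mem_inertiaField A r) hr' _ (htors x)
    exact hQ
  · -- the line is cyclic
    have hdvd : Nat.card L' ∣ p ^ 2 := by
      rw [← hcard]
      exact AddSubgroup.card_addSubgroup_dvd_card L'
    obtain ⟨k, hk2, hk⟩ := (Nat.dvd_prime_pow hp.out).mp hdvd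
    have hk1 : k ≤ 1 := by
      by_contra hcon
      push Not at hcon
      have hk2' : k = 2 := by omega
      rw [hk, hk2'] at hcardL'
      nlinarith
    have hcyc : IsAddCyclic L' := by
      rcases Nat.le_one_iff_eq_zero_or_eq_one.mp hk1 with h0 | h1
      · rw [h0, pow_zero] at hk
        have : Finite L' := Nat.finite_of_card_ne_zero (by rw [hk]; exact one_ne_zero)
        have : Subsingleton L' := (Nat.card_eq_one_iff_unique.mp hk).1
        exact isAddCyclic_of_subsingleton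
      · rw [h1, pow_one] at hk
        exact isAddCyclic_of_prime_card hk
    obtain ⟨ℓ₀, hℓ₀⟩ := hcyc.exists_generator
    refine ⟨ℓ₀.1, ℓ₀.2, ?_⟩
    intro x hx
    obtain ⟨k, hk⟩ := AddSubgroup.mem_zmultiples_iff.mp (hℓ₀ ⟨x, hx⟩)
    refine ⟨k, ?_⟩
    have := congrArg Subtype.val hk
    rw [AddSubgroup.coe_zsmul] at this
    exact this.symm
  · -- inertia elements fixing `μ_p` fix the line pointwise
    intro σ hσ hω x hx
    obtain ⟨hσv, -⟩ := hsharpσ σ hσ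
    rw [hmemL'] at hx
    apply Subtype.ext
    have e1 : ((σ • x : Submodule.torsionBy ℤ
        ((legW ((a : ℤ) : ℚ) ((b : ℤ) : ℚ) : Affine ℚ)⁄Kbar).Point p) :
        ((legW ((a : ℤ) : ℚ) ((b : ℤ) : ℚ) : Affine ℚ)⁄Kbar).Point) = σ • (x : _) := rfl
    rw [e1]
    apply (eLeg ((a : ℤ) : ℚ) ((b : ℤ) : ℚ)).injective
    rw [eLeg_smul]
    exact e1_torsion_fixed_of_zeta hnode hp.out.pos hbp hζ (σ : Kbar →+* Kbar)
      (fun y => hσv y) (fixed_of_mem_inertiaField hσ hFβ) (tauLeg _ _ σ) (tauLeg_some _ _ σ)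
      (hω ζ hζ.pow_eq_one) hx (htors x)
  · -- the sharp form: every point is fixed by `Fix(μ_p, u^{1/p})` for an unramified unit `u`
    intro y
    obtain ⟨u₀, hu₀F, hu₀v, hfix⟩ := node_fixed_sharp hnode exists_sq_Kbar hp3 hbp hζ
      (inertiaField A) hFa hFb (sqrt_mem_inertiaField A hnode.h2) (intCast_mem_inertiaField A r)
      hr' _ (htors y)
    refine ⟨u₀, (mem_inertiaField A u₀).mp hu₀F, hu₀v, ?_⟩
    intro σ hσ hω hs
    obtain ⟨hσv, hσ1⟩ := hsharpσ σ hσ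
    apply Subtype.ext
    have e1 : ((σ • y : Submodule.torsionBy ℤ
        ((legW ((a : ℤ) : ℚ) ((b : ℤ) : ℚ) : Affine ℚ)⁄Kbar).Point p) :
        ((legW ((a : ℤ) : ℚ) ((b : ℤ) : ℚ) : Affine ℚ)⁄Kbar).Point) = σ • (y : _) := rfl
    rw [e1]
    apply (eLeg ((a : ℤ) : ℚ) ((b : ℤ) : ℚ)).injective
    rw [eLeg_smul]
    exact hfix (σ : Kbar →+* Kbar) (fun x => hσv x) (fun x hx => hσ1 x hx)
      (fun z hz => fixed_of_mem_inertiaField hσ hz) (tauLeg _ _ σ) (tauLeg_some _ _ σ)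
      (hω ζ hζ.pow_eq_one) hs

end legW

/-- **The inertia line of the Frey curve at `p ∣ a b c`.** -/
theorem frey_hasInertiaLine (P : FreyPackage) (hpabc : (P.p : ℤ) ∣ P.a * P.b * P.c)
    (A : ValuationSubring Kbar) (hA : A.LiesOverPrime P.p) :
    HasInertiaLine (P.freyCurve : Affine ℚ) P.p A := by
  have : Fact P.p.Prime := ⟨P.pp⟩
  have hq : P.p.Prime := P.pp
  have hqA : A.valuation (P.p : Kbar) < 1 := hA
  have hp3 : 3 ≤ P.p := by have := P.hp5; omega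
  have hp0 : P.p ≠ 0 := P.hp0
  have hFLT : P.a ^ P.p + P.b ^ P.p = P.c ^ P.p := P.hFLT
  have hqprime : Prime (P.p : ℤ) := Nat.prime_iff_prime_int.mp P.pp
  have hnot_ab : ¬((P.p : ℤ) ∣ P.a ∧ (P.p : ℤ) ∣ P.b) := by
    rintro ⟨h1, h2⟩
    have := dvd_gcd h1 h2
    rw [P.hgcdab] at this
    exact hqprime.not_isUnit (isUnit_of_dvd_one this)
  have hnot_ac : ¬((P.p : ℤ) ∣ P.a ∧ (P.p : ℤ) ∣ P.c) := by
    rintro ⟨h1, h2⟩
    have := dvd_gcd h1 h2
    rw [P.hgcdac] at this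
    exact hqprime.not_isUnit (isUnit_of_dvd_one this)
  have hpow : ∀ z : ℤ, (P.p : ℤ) ∣ z ^ P.p ↔ (P.p : ℤ) ∣ z := fun z =>
    ⟨fun h => hqprime.dvd_of_dvd_pow h, fun h => dvd_pow h hp0⟩
  have hpow3 : ∀ z : ℤ, (P.p : ℤ) ∣ z → (P.p : ℤ) ^ 3 ∣ z ^ P.p := fun z hz =>
    dvd_trans (pow_dvd_pow _ hp3) (pow_dvd_pow_of_dvd hz _)
  by_cases hc : (P.p : ℤ) ∣ P.c
  · -- `p ∣ c`: the shifted model
    have ha : ¬(P.p : ℤ) ∣ P.a := fun h => hnot_ac ⟨h, hc⟩
    have hAi : A.valuation ((P.a ^ P.p : ℤ) : Kbar) = 1 :=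
      vint_eq_one_of_not_dvd A hq hqA (fun h => ha ((hpow _).mp h))
    refine HasInertiaLine.of_variableChange_eq (P.freyCurve : Affine ℚ)
      (legW (((P.a ^ P.p + P.c ^ P.p : ℤ)) : ℚ) (((P.a ^ P.p * P.c ^ P.p : ℤ)) : ℚ) : Affine ℚ)
      (freyVCShift P) ?_
      (legW_hasInertiaLine (p := P.p) hp3 (P.a ^ P.p + P.c ^ P.p) (P.a ^ P.p * P.c ^ P.p)
        (P.c ^ 2) ?_ ?_ ?_ ?_ A hA ?_)
    · rw [freyVCShift_smul]
      simp only [legW]
      push_cast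
      rfl
    · intro h
      have : (P.p : ℤ) ∣ P.a ^ P.p := (dvd_add_left ((hpow _).mpr hc)).mp h
      exact ha ((hpow _).mp this)
    · exact dvd_mul_of_dvd_right (hpow3 _ hc) _
    · exact mul_ne_zero (pow_ne_zero _ P.ha0) (pow_ne_zero _ P.hc0)
    · have e : (P.a ^ P.p + P.c ^ P.p) ^ 2 - 4 * (P.a ^ P.p * P.c ^ P.p) =
          (P.b ^ P.p) ^ 2 := by rw [← hFLT]; ring
      rw [e]
      exact pow_ne_zero _ (pow_ne_zero _ P.hb0)
    · push_cast
      rw [map_mul, map_pow, map_pow, map_pow]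
      push_cast at hAi
      rw [map_pow] at hAi
      rw [hAi, one_mul, ← pow_mul, ← pow_mul, mul_comm]
  · -- `p ∣ a b`: the Legendre model
    have hab : (P.p : ℤ) ∣ P.a * P.b := by
      rcases hqprime.dvd_or_dvd hpabc with h | h
      · exact h
      · exact absurd h hc
    have hd0 : (P.b ^ P.p - P.a ^ P.p) ^ 2 - 4 * -(P.a ^ P.p * P.b ^ P.p) =
        (P.c ^ P.p) ^ 2 := by rw [← hFLT]; ring
    refine HasInertiaLine.of_variableChange_eq (P.freyCurve : Affine ℚ)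
      (legW (((P.b ^ P.p - P.a ^ P.p : ℤ)) : ℚ) (((-(P.a ^ P.p * P.b ^ P.p) : ℤ)) : ℚ) : Affine ℚ)
      freyVC ?_
      (legW_hasInertiaLine (p := P.p) hp3 (P.b ^ P.p - P.a ^ P.p) (-(P.a ^ P.p * P.b ^ P.p))
        ((P.a * P.b) ^ 2) ?_ ?_ ?_ ?_ A hA ?_)
    · rw [freyVC_smul]
      simp only [legW]
      push_cast
      rfl
    · intro h
      rcases hqprime.dvd_or_dvd hab with h1 | h1
      · have h2 : (P.p : ℤ) ∣ P.b ^ P.p := (dvd_sub_left ((hpow _).mpr h1)).mp h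
        exact hnot_ab ⟨h1, (hpow _).mp h2⟩
      · have h2 : (P.p : ℤ) ∣ P.a ^ P.p := (dvd_sub_right ((hpow _).mpr h1)).mp h
        exact hnot_ab ⟨(hpow _).mp h2, h1⟩
    · rw [dvd_neg, ← mul_pow]
      exact hpow3 _ hab
    · exact neg_ne_zero.mpr (mul_ne_zero (pow_ne_zero _ P.ha0) (pow_ne_zero _ P.hb0))
    · rw [hd0]
      exact pow_ne_zero _ (pow_ne_zero _ P.hc0)
    · push_cast
      rw [Valuation.map_neg, ← map_pow, ← map_pow]
      congr 1
      ring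

end Fermat.Agent.S44lib.Q3
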