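/-
S44 library, block Q3 (helper8): **`Q3Stmt` of `S44lib/Iface` is a theorem**, together with the
full "Galois shape" of the Frey module at `p ∣ abc` in the vocabulary of the interface.
-/
import Mathlib
import Fermat.Agent.S44lib.Iface
import Fermat.Agent.S44lib.Q3.FreyA0
import Fermat.Agent.S44lib.Q3.FreyLine

set_option autoImplicit false

namespace Fermat.Agent.S44lib.Q3

open Fermat.Agent.S44lib Fermat.Agent.S19lib

local notation "Kbar" => AlgebraicClosure ℚ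

/-- **Q3 (Frey at `p`)**, V-form of `S44lib/Iface` v2/v3: for `p ∣ abc` and a place `A` over `p`,
every point of the Frey module `E[p]` is rational over `K₁(w)` for a `p`-th root `w` of a unit of
`A0 A`; and `E[p]` contains a proper inertia-stable subgroup `L`, fixed pointwise by `I₁`, modulo
which inertia acts trivially. -/
theorem q3Stmt : Q3Stmt := by
  intro P hpabc A hA
  obtain ⟨L, h1, h2, h3, -, h5, h6⟩ := frey_hasInertiaLine P hpabc A hA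
  refine ⟨?_, L, h1, h2, h3, fun σ hσ x hx => h5 σ hσ.1 hσ.2 x hx⟩
  intro y
  obtain ⟨u, hu, huv, hfix⟩ := h6 y
  obtain ⟨w, hw⟩ : ∃ w : Kbar, w ^ P.p = u := IsAlgClosed.exists_pow_nat_eq u P.pp.pos
  refine ⟨w, ⟨?_, ?_⟩, ?_⟩
  · rw [hw]
    exact ⟨(A.valuation_le_one_iff _).mp huv.le, hu⟩
  · rw [hw]; exact huv
  · intro σ hσ hσw
    exact hfix σ hσ.1 hσ.2 ⟨w, hw, hσw⟩

/-- The `UPeu`-form (Iface v1): `UPeu A p` fixes the Frey module pointwise. -/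
theorem frey_fixed_by_UPeu (P : FreyPackage) (hpabc : (P.p : ℤ) ∣ P.a * P.b * P.c)
    (A : ValuationSubring Kbar) (hA : A.LiesOverPrime P.p) :
    ∀ σ ∈ UPeu A P.p, ∀ x : FreyTors P, σ • x = x :=
  fun σ hσ x => frey_torsion_fixed_of_fixesUnitRoots P hpabc A hA σ hσ.1 hσ.2 x

/-- **The Galois shape of the Frey module at `p ∣ abc`** (what block (M′) consumes): a proper
`I_A`-stable CYCLIC subgroup `L` with `(σ - 1) E[p] ⊆ L` for `σ ∈ I_A`, fixed pointwise by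
`I_A ∩ Fix(μ_p)`; and every `y ∈ E[p]` is fixed by `I_A ∩ Fix(μ_p) ∩ Fix(u^{1/p})` for a unit
`u ∈ A0 A` depending on `y`. -/
theorem frey_shape (P : FreyPackage) (hpabc : (P.p : ℤ) ∣ P.a * P.b * P.c)
    (A : ValuationSubring Kbar) (hA : A.LiesOverPrime P.p) :
    ∃ L : AddSubgroup (FreyTors P), L ≠ ⊤ ∧
      (∀ σ ∈ IA A, ∀ x ∈ L, σ • x ∈ L) ∧
      (∀ σ ∈ IA A, ∀ x : FreyTors P, σ • x - x ∈ L) ∧
      (∃ ℓ₀ ∈ L, ∀ x ∈ L, ∃ k : ℤ, x = k • ℓ₀) ∧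
      (∀ σ ∈ IA A, (∀ ω : Kbar, ω ^ P.p = 1 → σ ω = ω) → ∀ x ∈ L, σ • x = x) ∧
      (∀ y : FreyTors P, ∃ u : Kbar, u ∈ A0 A ∧ A.valuation u = 1 ∧
        ∀ σ ∈ IA A, (∀ ω : Kbar, ω ^ P.p = 1 → σ ω = ω) →
          (∃ s : Kbar, s ^ P.p = u ∧ σ s = s) → σ • y = y) := by
  obtain ⟨L, h1, h2, h3, h4, h5, h6⟩ := frey_hasInertiaLine P hpabc A hA
  refine ⟨L, h1, h2, h3, h4, h5, ?_⟩
  intro y
  obtain ⟨u, hu, huv, hfix⟩ := h6 y
  exact ⟨u, ⟨(A.valuation_le_one_iff _).mp huv.le, hu⟩, huv, hfix⟩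

end Fermat.Agent.S44lib.Q3
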